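/-
PROJECT V (S36), slice V-HurwitzCount (helper17), file 1/7: the multiplicity of a prime `p` in a
relative ideal norm when all primes over `p` have inertia degree one -- NO perfectness hypothesis
on the fraction field (function fields in characteristic `q`).  Mathlib only.

* `relNorm_eq_of_inertiaDeg_eq_one`   : `relNorm R Q = p` for every prime `Q` over `p`;
* `multiplicity_relNorm_of_inertiaDeg_eq_one` :
    `multiplicity p (relNorm R I) = ∑_{Q ∣ p} multiplicity Q I`;
* `multiplicity_span_intNorm`         : the same for `I = (π)`, `relNorm R (π) = (intNorm π)`;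
* `multiplicity_span_intNorm_eq_one`  : if `π ∈ P \ P ^ 2` and `π` lies in no other prime over `p`,
    then `p` divides `(intNorm π)` exactly once.
-/
import Mathlib

set_option autoImplicit false
set_option linter.style.haveILetI false

namespace Fermat.Agent.S36.HurwitzCount.NormVal

open Ideal

variable {R S : Type*} [CommRing R] [IsDedekindDomain R] [CommRing S] [IsDedekindDomain S]
  [Algebra R S] [Module.Finite R S] [Module.IsTorsionFree R S]

/-- for distinct nonzero primes of a Dedekind domain the multiplicity is zero -/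
theorem multiplicity_prime_prime {A : Type*} [CommRing A] [IsDedekindDomain A] {p q : Ideal A}
    [hp : p.IsPrime] (hq : q.IsMaximal) [DecidableEq (Ideal A)] :
    multiplicity p q = if p = q then 1 else 0 := by
  split_ifs with h
  · subst h
    exact multiplicity_self
  · rw [multiplicity_eq_zero, Ideal.dvd_iff_le]
    intro hle
    exact h (hq.eq_of_le hp.ne_top hle).symm

/-- powers of a proper nonzero ideal of a Dedekind domain are distinct -/
theorem pow_inj_of_ne {A : Type*} [CommRing A] [IsDedekindDomain A] {p : Ideal A} (hp : p ≠ ⊥)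
    (hp1 : p ≠ ⊤) {a b : ℕ} (h : p ^ a = p ^ b) : a = b :=
  (Ideal.pow_right_strictAnti p hp hp1).injective h

/-- **the relative norm of a prime over `p`, when all inertia degrees over `p` are one** -/
theorem relNorm_eq_of_inertiaDeg_eq_one (p : Ideal R) [hpmax : p.IsMaximal] (hp : p ≠ ⊥)
    (hf : ∀ q : p.primesOver S, q.1.inertiaDeg R = 1) (Q : p.primesOver S) :
    relNorm R Q.1 = p := by
  classical
  have hp1 : p ≠ ⊤ := hpmax.ne_top
  -- exponents `s q` with `relNorm q = p ^ s q`
  have hs : ∀ q : p.primesOver S, ∃ s : ℕ, relNorm R q.1 = p ^ s := fun q => by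
    haveI := q.2.2
    exact exists_relNorm_eq_pow_of_isPrime q.1 p
  choose s hs using hs
  have hs1 : ∀ q : p.primesOver S, 1 ≤ s q := fun q => by
    by_contra h0
    have h0' : s q = 0 := by omega
    have h1 := relNorm_le_comap R q.1
    rw [hs q, h0', pow_zero, Ideal.one_eq_top, top_le_iff] at h1
    haveI := q.2.1
    exact (Ideal.comap_ne_top _ q.2.1.ne_top) h1
  -- the fundamental identity
  have hsum := Ideal.sum_ramification_inertia_eq_finrank p S
  simp_rw [hf, mul_one] at hsum
  -- the norm of `p S`
  have hprod : Ideal.map (algebraMap R S) p =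
      ∏ P ∈ (p.primesOver S).toFinset, P ^ P.ramificationIdx R :=
    map_algebraMap_eq_finsetProd_pow hp
  have hnorm := relNorm_algebraMap S p
  rw [hprod, map_prod] at hnorm
  have hnorm' : ∏ q : p.primesOver S, p ^ (q.1.ramificationIdx R * s q) =
      p ^ Module.finrank R S := by
    rw [← hnorm, ← Finset.prod_set_coe (s := p.primesOver S)
      (f := fun P => relNorm R (P ^ P.ramificationIdx R))]
    refine Finset.prod_congr rfl fun q _ => ?_
    rw [map_pow, hs q, ← pow_mul, mul_comm]
  rw [Finset.prod_pow_eq_pow_sum] at hnorm'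
  have hexp := pow_inj_of_ne hp hp1 hnorm'
  -- compare
  have he : ∀ q : p.primesOver S, q.1.ramificationIdx R ≠ 0 := fun q => by
    haveI := q.2.1
    exact (q.1.ramificationIdx_pos R).ne'
  have hall : ∀ q ∈ (Finset.univ : Finset (p.primesOver S)),
      q.1.ramificationIdx R * s q = q.1.ramificationIdx R := by
    have hle : ∀ q ∈ (Finset.univ : Finset (p.primesOver S)),
        q.1.ramificationIdx R ≤ q.1.ramificationIdx R * s q := fun q _ =>
      Nat.le_mul_of_pos_right _ (hs1 q)
    have := (Finset.sum_eq_sum_iff_of_le hle).mp (by rw [hexp, hsum])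
    intro q hq
    exact (this q hq).symm
  have hQ := hall Q (Finset.mem_univ _)
  have hsQ : s Q = 1 := by
    have := he Q
    exact Nat.eq_of_mul_eq_mul_left (Nat.pos_of_ne_zero this) (by rw [hQ, mul_one])
  rw [hs Q, hsQ, pow_one]

/-- **the multiplicity of `p` in the relative norm of `I`**, all inertia degrees over `p` being
one (no perfectness hypothesis) -/
theorem multiplicity_relNorm_of_inertiaDeg_eq_one (p : Ideal R) [hpmax : p.IsMaximal] (hp : p ≠ ⊥)
    (hf : ∀ q : p.primesOver S, q.1.inertiaDeg R = 1) (I : Ideal S) (hI : I ≠ ⊥) :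
    multiplicity p (relNorm R I) = ∑ q : p.primesOver S, multiplicity q.1 I := by
  classical
  have hpprime : Prime p := Ideal.prime_of_isPrime hp hpmax.isPrime
  have hqprime : ∀ q : p.primesOver S, Prime q.1 := fun q => by
    haveI := q.2.2
    exact Ideal.prime_of_isPrime (Ideal.ne_bot_of_liesOver_of_ne_bot hp q.1) q.2.1
  induction I using UniqueFactorizationMonoid.induction_on_prime with
  | h₁ => exact absurd rfl hI
  | h₂ J hJ =>
    have hJ' : J = ⊤ := Ideal.isUnit_iff.mp hJ
    subst hJ'
    rw [relNorm_top]
    have h1 : multiplicity p (⊤ : Ideal R) = 0 := by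
      rw [multiplicity_eq_zero, Ideal.dvd_iff_le, top_le_iff]
      exact hpmax.ne_top
    rw [h1]
    symm
    refine Finset.sum_eq_zero fun q _ => ?_
    rw [multiplicity_eq_zero, Ideal.dvd_iff_le, top_le_iff]
    exact q.2.1.ne_top
  | h₃ J Q hJ hQ ih =>
    have hQ0 : Q ≠ ⊥ := hQ.ne_zero
    haveI hQprime : Q.IsPrime := Ideal.isPrime_of_prime hQ
    haveI hQmax : Q.IsMaximal := hQprime.isMaximal hQ0
    have ih' := ih hJ
    have hne : relNorm R (Q * J) ≠ ⊥ := by
      rw [Ne, relNorm_eq_bot_iff]
      exact mul_ne_zero hQ0 hJ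
    rw [map_mul] at hne ⊢
    rw [multiplicity_mul hpprime (FiniteMultiplicity.of_prime_left hpprime hne), ih']
    have hsum : ∀ q : p.primesOver S, multiplicity q.1 (Q * J) =
        multiplicity q.1 Q + multiplicity q.1 J := fun q =>
      multiplicity_mul (hqprime q)
        (FiniteMultiplicity.of_prime_left (hqprime q) (mul_ne_zero hQ0 hJ))
    simp_rw [hsum, Finset.sum_add_distrib]
    congr 1
    -- the contribution of the prime `Q`
    have hmq : ∀ q : p.primesOver S, multiplicity q.1 Q = if q.1 = Q then 1 else 0 := fun q => by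
      haveI := q.2.1
      exact multiplicity_prime_prime hQmax
    simp_rw [hmq]
    by_cases hQover : Q ∈ p.primesOver S
    · have h1 := relNorm_eq_of_inertiaDeg_eq_one p hp hf ⟨Q, hQover⟩
      simp only at h1
      rw [h1, multiplicity_self]
      rw [Finset.sum_eq_single_of_mem (⟨Q, hQover⟩ : p.primesOver S) (Finset.mem_univ _)]
      · simp
      · intro q _ hq
        rw [if_neg]
        intro h
        exact hq (Subtype.ext h)
    · set p' : Ideal R := Q.under R with hp'
      haveI : Q.LiesOver p' := ⟨rfl⟩
      haveI hp'max : p'.IsMaximal := inferInstance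
      have hpp' : p' ≠ p := by
        intro h
        exact hQover ⟨hQprime, ⟨h.symm⟩⟩
      obtain ⟨s, hs⟩ := exists_relNorm_eq_pow_of_isPrime Q p'
      have h1 : multiplicity p (relNorm R Q) = 0 := by
        rw [hs, multiplicity_eq_zero]
        intro hdvd
        have h2 := hpprime.dvd_of_dvd_pow hdvd
        rw [Ideal.dvd_iff_le] at h2
        exact hpp' (hp'max.eq_of_le hpmax.ne_top h2)
      rw [h1]
      symm
      refine Finset.sum_eq_zero fun q _ => ?_
      rw [if_neg]
      intro h
      exact hQover (h ▸ q.2)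

/-- the same for a principal ideal: `relNorm R (π) = (intNorm π)` -/
theorem multiplicity_span_intNorm (p : Ideal R) [hpmax : p.IsMaximal] (hp : p ≠ ⊥)
    (hf : ∀ q : p.primesOver S, q.1.inertiaDeg R = 1) (π : S) (hπ : π ≠ 0) :
    multiplicity p (Ideal.span {Algebra.intNorm R S π}) =
      ∑ q : p.primesOver S, multiplicity q.1 (Ideal.span {π}) := by
  rw [← relNorm_singleton]
  refine multiplicity_relNorm_of_inertiaDeg_eq_one p hp hf _ ?_
  rw [Ne, Ideal.span_singleton_eq_bot]
  exact hπ

/-- **a local parameter at `P` which is a unit at the other primes over `p` has a norm with a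
simple zero at `p`** -/
theorem multiplicity_span_intNorm_eq_one (p : Ideal R) [hpmax : p.IsMaximal] (hp : p ≠ ⊥)
    (hf : ∀ q : p.primesOver S, q.1.inertiaDeg R = 1) (P : p.primesOver S) (π : S)
    (h1 : π ∈ P.1) (h2 : π ∉ P.1 ^ 2) (h3 : ∀ q : p.primesOver S, q ≠ P → π ∉ q.1) :
    multiplicity p (Ideal.span {Algebra.intNorm R S π}) = 1 := by
  classical
  have hπ : π ≠ 0 := by
    rintro rfl
    exact h2 (Ideal.zero_mem _)
  rw [multiplicity_span_intNorm p hp hf π hπ,
    Finset.sum_eq_single_of_mem P (Finset.mem_univ _)]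
  · haveI := P.2.1
    haveI := P.2.2
    have hPprime : Prime P.1 :=
      Ideal.prime_of_isPrime (Ideal.ne_bot_of_liesOver_of_ne_bot hp P.1) P.2.1
    have hspan : Ideal.span {π} ≠ ⊥ := by
      rw [Ne, Ideal.span_singleton_eq_bot]
      exact hπ
    have hfm : FiniteMultiplicity P.1 (Ideal.span {π}) :=
      FiniteMultiplicity.of_prime_left hPprime hspan
    refine hfm.multiplicity_eq_iff.mpr ⟨?_, ?_⟩
    · rw [pow_one, Ideal.dvd_iff_le, Ideal.span_singleton_le_iff_mem]
      exact h1
    · rw [Ideal.dvd_iff_le, Ideal.span_singleton_le_iff_mem]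
      exact h2
  · intro q _ hq
    rw [multiplicity_eq_zero, Ideal.dvd_iff_le, Ideal.span_singleton_le_iff_mem]
    exact h3 q hq

end Fermat.Agent.S36.HurwitzCount.NormVal
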