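/-
PROJECT V (S36), slice V-HurwitzCount (helper17), file 2/7: the two local facts about the minimal
polynomial `f` of a primitive integral element `π` in an AKLB situation (`L/K` finite separable):

* `diffExpAt_le_multiplicity` : `d_P ≤ ord_P (f'(π))` (the EASY half of the different bridge,
  Mathlib's `aeval_derivative_mem_differentIdeal`; no conductor argument);
* `multiplicity_coeff_zero_eq_one` : if all primes over `p` have inertia degree one, `π ∈ P \ P ^ 2`
  and `π` lies in no other prime over `p`, then `p` divides the constant coefficient `f(0) = ± N(π)`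
  exactly once (no perfectness hypothesis).
-/
import Mathlib
import Fermat.Agent.S18.A.DiffLower
import Fermat.Agent.S36.HurwitzCount.NormVal

set_option autoImplicit false
set_option linter.unusedSectionVars false
set_option linter.overlappingInstances false

namespace Fermat.Agent.S36.HurwitzCount.Local

open IsDedekindDomain Polynomial Fermat.Agent.S18.A.Defs Fermat.Agent.S18.A.DiffLower

variable (A K L : Type*) {B : Type*} [CommRing A] [Field K] [CommRing B] [Field L]
  [Algebra A K] [Algebra B L] [Algebra A B] [Algebra K L] [Algebra A L]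
  [IsScalarTower A K L] [IsScalarTower A B L]
  [IsFractionRing A K] [FiniteDimensional K L] [Algebra.IsSeparable K L]
  [IsIntegralClosure B A L] [IsFractionRing B L] [IsDedekindDomain A] [IsDedekindDomain B]
  [Module.IsTorsionFree A B] [Module.Finite A B]

include K L in
/-- `f'(π) ≠ 0` for the minimal polynomial `f` of `π` over `A` (separability) -/
theorem aeval_derivative_minpoly_ne_zero (π : B) :
    aeval π (derivative (minpoly A π)) ≠ 0 := by
  have hAx : IsIntegral A π := IsIntegralClosure.isIntegral A L π
  have hne₁ : aeval (algebraMap B L π) (derivative (minpoly K (algebraMap B L π))) ≠ 0 :=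
    (Algebra.IsSeparable.isSeparable _ _).aeval_derivative_ne_zero (minpoly.aeval _ _)
  have h2 : algebraMap B L (aeval π (derivative (minpoly A π))) ≠ 0 := by
    rwa [minpoly.isIntegrallyClosed_eq_field_fractions K L hAx, derivative_map,
      aeval_map_algebraMap, aeval_algebraMap_apply] at hne₁
  intro h0
  rw [h0, map_zero] at h2
  exact h2 rfl

include K L in
/-- **easy half of the different bridge**: `d_P ≤ ord_P (f'(π))` for a primitive `π` -/
theorem diffExpAt_le_multiplicity (P : HeightOneSpectrum B) (π : B)
    (hprim : Algebra.adjoin K {algebraMap B L π} = ⊤) :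
    diffExpAt A P ≤
      multiplicity P.asIdeal (Ideal.span {aeval π (derivative (minpoly A π))}) := by
  have hmem := aeval_derivative_mem_differentIdeal A K L π hprim
  have hle : Ideal.span {aeval π (derivative (minpoly A π))} ≤ differentIdeal A B := by
    rw [Ideal.span_le, Set.singleton_subset_iff]
    exact hmem
  have hdvd : P.asIdeal ^ diffExpAt A P ∣ differentIdeal A B :=
    (pow_dvd_differentIdeal_iff A K L P _).mpr le_rfl
  have hdvd' : P.asIdeal ^ diffExpAt A P ∣ Ideal.span {aeval π (derivative (minpoly A π))} :=
    dvd_trans hdvd (Ideal.dvd_iff_le.mpr hle)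
  have hspan : Ideal.span {aeval π (derivative (minpoly A π))} ≠ ⊥ := by
    rw [Ne, Ideal.span_singleton_eq_bot]
    exact aeval_derivative_minpoly_ne_zero A K L π
  exact (FiniteMultiplicity.of_prime_left P.prime hspan).le_multiplicity_of_pow_dvd hdvd'

include K L in
/-- `(N(π)) = (f(0))` for a primitive `π` -/
theorem span_intNorm_eq (π : B) (hprim : Algebra.adjoin K {algebraMap B L π} = ⊤) :
    Ideal.span {Algebra.intNorm A B π} = Ideal.span {(minpoly A π).coeff 0} := by
  have hAx : IsIntegral A π := IsIntegralClosure.isIntegral A L π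
  have hKx : IsIntegral K (algebraMap B L π) := Algebra.IsIntegral.isIntegral _
  let pb := PowerBasis.ofAdjoinEqTop hKx hprim
  have hgen : pb.gen = algebraMap B L π := PowerBasis.ofAdjoinEqTop_gen hKx hprim
  have h1 := Algebra.PowerBasis.norm_gen_eq_coeff_zero_minpoly pb
  rw [hgen, minpoly.isIntegrallyClosed_eq_field_fractions K L hAx, coeff_map,
    ← Algebra.algebraMap_intNorm (A := A) (B := B)] at h1
  have h2 : Algebra.intNorm A B π = (-1) ^ pb.dim * (minpoly A π).coeff 0 := by
    apply IsFractionRing.injective A K
    rw [h1, map_mul, map_pow, map_neg, map_one]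
  rw [h2]
  refine Ideal.span_singleton_eq_span_singleton.mpr ?_
  refine ⟨(-1 : Aˣ) ^ pb.dim, ?_⟩
  rw [mul_comm, ← mul_assoc, Units.val_pow_eq_pow_val, Units.val_neg, Units.val_one, ← mul_pow]
  simp

include K L in
/-- **the constant coefficient of the minimal polynomial of a good local parameter has a simple
zero at `p`** -/
theorem multiplicity_coeff_zero_eq_one (p : Ideal A) [hpmax : p.IsMaximal] (hp : p ≠ ⊥)
    (hf : ∀ q : p.primesOver B, q.1.inertiaDeg A = 1) (P : p.primesOver B) (π : B)
    (h1 : π ∈ P.1) (h2 : π ∉ P.1 ^ 2) (h3 : ∀ q : p.primesOver B, q ≠ P → π ∉ q.1)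
    (hprim : Algebra.adjoin K {algebraMap B L π} = ⊤) :
    multiplicity p (Ideal.span {(minpoly A π).coeff 0}) = 1 := by
  rw [← span_intNorm_eq A K L π hprim]
  exact NormVal.multiplicity_span_intNorm_eq_one p hp hf P π h1 h2 h3

end Fermat.Agent.S36.HurwitzCount.Local
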