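/-
PROJECT V (S36), slice V-HurwitzCount (helper17), file 3/7: existence of a GOOD local parameter in
an AKLB situation (`L/K` finite separable, `A` infinite): for a prime `P` of `B` over `p ≠ ⊥` there
is `π : B` with

  `π ∈ P`, `π ∉ P ^ 2`, `π ∉ Q` for the other primes `Q` over `p`, and `K[π] = L`.

Construction: Chinese remainder theorem for the first three conditions, then the perturbation
`π₀ + c T` (`T` an integral primitive element lying in `p ^ 2 B`, `c ∈ A`): finitely many
intermediate fields and infinitely many `c`.  Mathlib only.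
-/
import Mathlib

set_option autoImplicit false
set_option linter.unusedSectionVars false
set_option linter.overlappingInstances false
set_option linter.style.haveILetI false

namespace Fermat.Agent.S36.HurwitzCount.Param

open IsDedekindDomain Polynomial IntermediateField

variable (A K L : Type*) {B : Type*} [CommRing A] [Field K] [CommRing B] [Field L]
  [Algebra A K] [Algebra B L] [Algebra A B] [Algebra K L] [Algebra A L]
  [IsScalarTower A K L] [IsScalarTower A B L]
  [IsFractionRing A K] [FiniteDimensional K L] [Algebra.IsSeparable K L]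
  [IsIntegralClosure B A L] [IsFractionRing B L] [IsDedekindDomain A] [IsDedekindDomain B]
  [Module.IsTorsionFree A B] [Module.Finite A B]

omit [IsScalarTower A K L] [IsScalarTower A B L] [IsFractionRing A K] [FiniteDimensional K L]
  [Algebra.IsSeparable K L] [IsIntegralClosure B A L] [IsFractionRing B L] [Algebra A K]
  [Algebra B L] [Algebra K L] [Algebra A L] in
/-- Chinese remainder theorem: a local parameter at `P` which is a unit at the other primes over
`p`. -/
theorem exists_crt (p : Ideal A) [hpmax : p.IsMaximal] (hp : p ≠ ⊥) (P : p.primesOver B) :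
    ∃ π : B, π ∈ P.1 ∧ π ∉ P.1 ^ 2 ∧ ∀ q : p.primesOver B, q ≠ P → π ∉ q.1 := by
  classical
  haveI := P.2.1
  haveI := P.2.2
  have hP0 : P.1 ≠ ⊥ := Ideal.ne_bot_of_liesOver_of_ne_bot hp P.1
  obtain ⟨ϖ, hϖ1, hϖ2⟩ := Ideal.exists_mem_pow_notMem_pow_succ P.1 hP0 P.2.1.ne_top 1
  rw [pow_one] at hϖ1
  have hprime : ∀ q ∈ (Finset.univ : Finset (p.primesOver B)), Prime q.1 := fun q _ => by
    haveI := q.2.2
    exact Ideal.prime_of_isPrime (Ideal.ne_bot_of_liesOver_of_ne_bot hp q.1) q.2.1
  obtain ⟨y, hy⟩ := IsDedekindDomain.exists_forall_sub_mem_ideal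
    (s := (Finset.univ : Finset (p.primesOver B))) (fun q => q.1)
    (fun q => if q = P then 2 else 1) hprime
    (fun q _ q' _ h h' => h (Subtype.ext h')) (fun q => if q.1 = P then ϖ else 1)
  refine ⟨y, ?_, ?_, ?_⟩
  · have h1 := hy P (Finset.mem_univ _)
    simp only [if_true] at h1
    have h2 : y - ϖ ∈ P.1 := Ideal.pow_le_self two_ne_zero h1
    have h3 : y = (y - ϖ) + ϖ := by ring
    rw [h3]
    exact Ideal.add_mem _ h2 hϖ1
  · have h1 := hy P (Finset.mem_univ _)
    simp only [if_true] at h1
    intro h2
    apply hϖ2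
    have h3 : ϖ = y - (y - ϖ) := by ring
    rw [h3]
    exact Ideal.sub_mem _ h2 h1
  · intro q hq hmem
    have h1 := hy q (Finset.mem_univ _)
    simp only [if_neg hq, pow_one] at h1
    haveI := q.2.1
    apply q.2.1.ne_top
    rw [Ideal.eq_top_iff_one]
    have h3 : (1 : B) = y - (y - 1) := by ring
    rw [h3]
    exact Ideal.sub_mem _ hmem h1

/-- an integral primitive element lying in `t B` for a given `t ≠ 0` of `A` -/
theorem exists_primitive_mul (t : A) (ht : t ≠ 0) :
    ∃ T : B, K⟮algebraMap B L T⟯ = ⊤ ∧ ∃ T' : B, T = algebraMap A B t * T' := by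
  obtain ⟨α, hα⟩ := Field.exists_primitive_element K L
  have hinj : Function.Injective (algebraMap A L) := by
    rw [IsScalarTower.algebraMap_eq A K L]
    exact (algebraMap K L).injective.comp (IsFractionRing.injective A K)
  have halgK : IsAlgebraic K α := Algebra.IsAlgebraic.isAlgebraic α
  have halg : IsAlgebraic A α := (IsFractionRing.isAlgebraic_iff A K L).mpr halgK
  obtain ⟨y, hy0, hy⟩ := halg.exists_integral_multiple
  obtain ⟨T', hT'⟩ := (IsIntegralClosure.isIntegral_iff (A := B)).mp hy
  refine ⟨algebraMap A B t * T', ?_, T', rfl⟩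
  have hyL : algebraMap A L y ≠ 0 := fun h => hy0 (hinj (by rw [h, map_zero]))
  have htL : algebraMap A L t ≠ 0 := fun h => ht (hinj (by rw [h, map_zero]))
  have hval : algebraMap B L (algebraMap A B t * T') = algebraMap A L (t * y) * α := by
    rw [map_mul, hT', ← IsScalarTower.algebraMap_apply, Algebra.smul_def, map_mul]
    ring
  rw [hval, eq_top_iff, ← hα, adjoin_simple_le_iff]
  generalize hE : K⟮algebraMap A L (t * y) * α⟯ = E
  have hmem : algebraMap A L (t * y) * α ∈ E := by
    rw [← hE]
    exact mem_adjoin_simple_self K _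
  have hc : algebraMap A L (t * y) ∈ E := by
    rw [IsScalarTower.algebraMap_apply A K L]
    exact IntermediateField.algebraMap_mem _ _
  have hne : algebraMap A L (t * y) ≠ 0 := by
    rw [map_mul]
    exact mul_ne_zero htL hyL
  have h3 : α = (algebraMap A L (t * y))⁻¹ * (algebraMap A L (t * y) * α) := by
    rw [← mul_assoc, inv_mul_cancel₀ hne, one_mul]
  rw [h3]
  exact mul_mem (inv_mem hc) hmem

/-- **existence of a good local parameter** -/
theorem exists_good_param [Infinite A] (p : Ideal A) [hpmax : p.IsMaximal] (hp : p ≠ ⊥)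
    (P : p.primesOver B) :
    ∃ π : B, π ∈ P.1 ∧ π ∉ P.1 ^ 2 ∧ (∀ q : p.primesOver B, q ≠ P → π ∉ q.1) ∧
      Algebra.adjoin K {algebraMap B L π} = ⊤ := by
  classical
  obtain ⟨π₀, h1, h2, h3⟩ := exists_crt A p hp P
  obtain ⟨t, htp, ht0⟩ := Submodule.exists_mem_ne_zero_of_ne_bot hp
  obtain ⟨T, hT, T', hTT'⟩ := exists_primitive_mul A K L (B := B) (t * t) (mul_ne_zero ht0 ht0)
  have hinj : Function.Injective (algebraMap A L) := by
    rw [IsScalarTower.algebraMap_eq A K L]
    exact (algebraMap K L).injective.comp (IsFractionRing.injective A K)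
  -- `T` lies in the square of every prime over `p`
  have hTq : ∀ q : p.primesOver B, T ∈ q.1 ^ 2 := fun q => by
    haveI := q.2.2
    have htq : algebraMap A B t ∈ q.1 := by
      have h4 : t ∈ q.1.under A := by
        rw [← Ideal.over_def q.1 p]
        exact htp
      exact h4
    rw [hTT', map_mul, pow_two]
    exact Ideal.mul_mem_right _ _ (Ideal.mul_mem_mul htq htq)
  -- finitely many intermediate fields
  haveI hfin : Finite (IntermediateField K L) :=
    (Field.exists_primitive_element_iff_finite_intermediateField K L).mp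
      ⟨inferInstance, Field.exists_primitive_element K L⟩
  obtain ⟨c, c', hcc', hE⟩ := Finite.exists_ne_map_eq_of_infinite
    (fun c : A => K⟮algebraMap B L (π₀ + algebraMap A B c * T)⟯)
  -- the common field contains `T`
  have hTmem : algebraMap B L T ∈ K⟮algebraMap B L (π₀ + algebraMap A B c * T)⟯ := by
    generalize hEE : K⟮algebraMap B L (π₀ + algebraMap A B c * T)⟯ = E at hE
    have hm1 : algebraMap B L (π₀ + algebraMap A B c * T) ∈ E := by
      rw [← hEE]
      exact mem_adjoin_simple_self K _
    have hm2 : algebraMap B L (π₀ + algebraMap A B c' * T) ∈ E := by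
      rw [hE]
      exact mem_adjoin_simple_self K _
    have hsub := sub_mem hm1 hm2
    have hdiff : algebraMap B L (π₀ + algebraMap A B c * T) -
        algebraMap B L (π₀ + algebraMap A B c' * T) =
          algebraMap A L (c - c') * algebraMap B L T := by
      rw [map_add, map_add, map_mul, map_mul, ← IsScalarTower.algebraMap_apply,
        ← IsScalarTower.algebraMap_apply, map_sub]
      ring
    rw [hdiff] at hsub
    have hne : algebraMap A L (c - c') ≠ 0 := by
      intro h
      apply hcc'
      have := hinj (by rw [h, map_zero] : algebraMap A L (c - c') = algebraMap A L 0)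
      exact sub_eq_zero.mp this
    have hcE : algebraMap A L (c - c') ∈ E := by
      rw [IsScalarTower.algebraMap_apply A K L]
      exact IntermediateField.algebraMap_mem _ _
    have h5 : algebraMap B L T =
        (algebraMap A L (c - c'))⁻¹ * (algebraMap A L (c - c') * algebraMap B L T) := by
      rw [← mul_assoc, inv_mul_cancel₀ hne, one_mul]
    rw [h5]
    exact mul_mem (inv_mem hcE) hsub
  have htop : K⟮algebraMap B L (π₀ + algebraMap A B c * T)⟯ = ⊤ := by
    rw [eq_top_iff, ← hT, adjoin_simple_le_iff]
    exact hTmem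
  refine ⟨π₀ + algebraMap A B c * T, ?_, ?_, ?_, ?_⟩
  · exact Ideal.add_mem _ h1 (Ideal.mul_mem_left _ _ (Ideal.pow_le_self two_ne_zero (hTq P)))
  · intro h
    apply h2
    have h6 : π₀ = (π₀ + algebraMap A B c * T) - algebraMap A B c * T := by ring
    rw [h6]
    exact Ideal.sub_mem _ h (Ideal.mul_mem_left _ _ (hTq P))
  · intro q hq hmem
    apply h3 q hq
    have h6 : π₀ = (π₀ + algebraMap A B c * T) - algebraMap A B c * T := by ring
    rw [h6]
    exact Ideal.sub_mem _ hmem (Ideal.mul_mem_left _ _ (Ideal.pow_le_self two_ne_zero (hTq q)))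
  · have halg : IsAlgebraic K (algebraMap B L (π₀ + algebraMap A B c * T)) :=
      Algebra.IsAlgebraic.isAlgebraic _
    rw [← adjoin_simple_toSubalgebra_of_isAlgebraic halg, htop, top_toSubalgebra]

end Fermat.Agent.S36.HurwitzCount.Param
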