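/-
PROJECT V (S36), slice V-HurwitzCount (helper17), file 4/7: the LOCAL inequality
`ord_Q (dπ/dx) ≤ - d_Q` for a good local parameter `π` at a place `Q` where `x` is regular.

Setting: `K` algebraically closed (any characteristic), `F/K` a function field with separating
element `x` (`hx : IsFF K x`, `hsep`), `D : Derivation K F M` an arbitrary `K`-derivation into an
`F`-vector space (`M = k((t))`, `D = θ` in the application).

* `exists_deriv_polyRing` : `D a = a' • D x`, `a' ∈ K[x]`, for `a ∈ K[x]`;
* `chain0`, `chain1`      : chain rule `D (p(π)) = u • D x + p'(π) • D π` for `p ∈ K[x][Y]`, with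
                            `u ≡ (p(0))'` modulo `π`;
* `exists_param_deriv`    : **for every place `Q` with `x` regular at `Q` there are `π, z ∈ F` with
                            `ord_Q π = 1`, `z ≠ 0`, `D π = z • D x` and `ord_Q z ≤ - d_Q`**
                            (`d_Q = Defs.diffExp hx hsep Q` the different exponent).
Only the EASY half of the different bridge is used (`f'(π) ∈ 𝔇`, `Local.diffExpAt_le_multiplicity`);
`f_x(π)` is a unit at `Q` because `N(π) = ± f(0)` has a simple zero at `x(Q)`
(`Local.multiplicity_coeff_zero_eq_one`).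
-/
import Mathlib
import Fermat.Agent.S18.A.DiffLower
import Fermat.Agent.S36.HurwitzCount.Local
import Fermat.Agent.S36.HurwitzCount.Param

set_option autoImplicit false
set_option linter.unusedSectionVars false
set_option linter.overlappingInstances false
set_option linter.style.haveILetI false

namespace Fermat.Agent.S36.HurwitzCount.Bridge

open AlgebraicCurve IsDedekindDomain IntermediateField Polynomial
  Fermat.Agent.S24.PlacePrime Fermat.Agent.S24.FF Fermat.Agent.S24.Ord Fermat.Agent.S24.Fibre
  Fermat.Agent.S18.A.Defs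
open scoped IntermediateField.algebraAdjoinAdjoin

universe u w

variable {K : Type w} {F : Type u} [Field K] [Field F] [Algebra K F] {x : F}
variable {M : Type*} [AddCommGroup M] [Module K M] [Module F M] [IsScalarTower K F M]

/-! ### the chain rule over `K[x]` -/

/-- `D a = a' • D x` with `a' ∈ K[x]` for `a ∈ K[x]` -/
theorem exists_deriv_polyRing (D : Derivation K F M) (a : polyRing K x) :
    ∃ a' : polyRing K x, D (a : F) = (a' : F) • D x := by
  have ha : (a : F) ∈ Algebra.adjoin K {x} := a.2
  rw [Algebra.adjoin_singleton_eq_range_aeval] at ha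
  obtain ⟨q, hq⟩ := ha
  refine ⟨⟨aeval x (derivative q), ?_⟩, ?_⟩
  · change _ ∈ Algebra.adjoin K {x}
    rw [Algebra.adjoin_singleton_eq_range_aeval]
    exact ⟨_, rfl⟩
  · have hq' : (a : F) = aeval x q := hq.symm
    rw [hq', Derivation.map_aeval]

/-- chain rule, coarse form -/
theorem chain0 (D : Derivation K F M) (π : F) (p : (polyRing K x)[X]) :
    ∃ w : (polyRing K x)[X],
      D (aeval π p) = aeval π w • D x + aeval π (derivative p) • D π := by
  induction p using Polynomial.induction_on' with
  | add p q hp hq =>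
    obtain ⟨wp, hwp⟩ := hp
    obtain ⟨wq, hwq⟩ := hq
    refine ⟨wp + wq, ?_⟩
    rw [map_add, map_add, hwp, hwq, map_add, map_add, map_add, add_smul, add_smul]
    abel
  | monomial n a =>
    obtain ⟨a', ha'⟩ := exists_deriv_polyRing D a
    refine ⟨monomial n a', ?_⟩
    rw [aeval_monomial, derivative_monomial, aeval_monomial, aeval_monomial, Derivation.leibniz,
      Derivation.leibniz_pow]
    have h1 : algebraMap (polyRing K x) F a = (a : F) := rfl
    have h2 : algebraMap (polyRing K x) F a' = (a' : F) := rfl
    have h3 : algebraMap (polyRing K x) F (a * (n : polyRing K x)) = (a : F) * (n : F) := by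
      rw [map_mul, map_natCast]
      rfl
    rw [h1, h2, h3, ha', ← Nat.cast_smul_eq_nsmul F, smul_smul, smul_smul, smul_smul, add_comm]
    congr 1
    rw [mul_comm]

/-- chain rule, with the constant coefficient tracked: `u = c₀ + π U`, `D (p(0)) = c₀ • D x` -/
theorem chain1 (D : Derivation K F M) (π : F) (p : (polyRing K x)[X]) (c₀ : polyRing K x)
    (hc₀ : D ((p.coeff 0 : polyRing K x) : F) = (c₀ : F) • D x) :
    ∃ w : (polyRing K x)[X],
      D (aeval π p) = ((c₀ : F) + π * aeval π w) • D x + aeval π (derivative p) • D π := by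
  obtain ⟨w, hw⟩ := chain0 D π p.divX
  refine ⟨w, ?_⟩
  have hp : aeval π p = aeval π p.divX * π + ((p.coeff 0 : polyRing K x) : F) := by
    conv_lhs => rw [← divX_mul_X_add p]
    rw [map_add, map_mul, aeval_X, aeval_C]
    rfl
  have hd : aeval π (derivative p) = aeval π (derivative p.divX) * π + aeval π p.divX := by
    conv_lhs => rw [← divX_mul_X_add p]
    rw [derivative_add, derivative_mul, derivative_X, derivative_C, add_zero, mul_one, map_add,
      map_mul, aeval_X]
  rw [hp, map_add, Derivation.leibniz, hw, hc₀, hd, smul_add, add_smul, add_smul, smul_smul,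
    smul_smul, mul_smul]
  rw [mul_comm π (aeval π (derivative p.divX))]
  abel

/-! ### inertia degree one from a coefficient field -/

/-- if every residue class of `B / q` is represented by a constant, the inertia degree is one -/
theorem inertiaDeg_eq_one_of_residue (k : Type*) {A B : Type*} [Field k] [CommRing A] [CommRing B]
    [Algebra k A] [Algebra k B] [Algebra A B] [IsScalarTower k A B] (p : Ideal A) [p.IsMaximal]
    (q : Ideal B) [q.IsMaximal] [q.LiesOver p]
    (hres : ∀ b : B, ∃ c : k, b - algebraMap k B c ∈ q) : q.inertiaDeg A = 1 := by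
  rw [Ideal.inertiaDeg_eq_of_isMaximal p q]
  letI : Field (A ⧸ p) := Ideal.Quotient.field p
  refine (finrank_eq_one_iff_of_nonzero' (1 : B ⧸ q) one_ne_zero).mpr ?_
  intro w
  obtain ⟨b, rfl⟩ := Ideal.Quotient.mk_surjective w
  obtain ⟨c, hc⟩ := hres b
  refine ⟨Ideal.Quotient.mk p (algebraMap k A c), ?_⟩
  rw [Algebra.smul_def, mul_one, Ideal.Quotient.algebraMap_mk_of_liesOver]
  symm
  rw [Ideal.Quotient.eq, ← IsScalarTower.algebraMap_apply]
  exact hc

/-! ### the local inequality -/

variable [IsAlgClosed K]

set_option maxHeartbeats 1600000 in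
set_option synthInstance.maxHeartbeats 400000 in
/-- **The local inequality** `ord_Q (dπ/dx) ≤ - d_Q` for a good local parameter `π` at a place `Q`
where `x` is regular: `D π = z • D x` with `ord_Q z ≤ - d_Q`, for EVERY `K`-derivation `D` of `F`. -/
theorem exists_param_deriv (hx : IsFF K x) (hsep : Algebra.IsSeparable K⟮x⟯ F)
    (D : Derivation K F M) (Q : Place K F) (hQ : Q.adicValuation x ≤ 1) :
    ∃ π z : F, Q.ord π = 1 ∧ z ≠ 0 ∧ D π = z • D x ∧
      Q.ord z ≤ -(diffExp hx hsep Q : ℤ) := by
  classical
  have hDed := S18.A.Defs.isDedekind hx hsep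
  have hFr := S18.A.Defs.isFractionRing hx
  have hfin := S18.A.Defs.moduleFinite hx hsep
  have hpid := isPID hx.transcendental
  have hKL : FiniteDimensional K⟮x⟯ F := hx.finite
  obtain ⟨a, hQa⟩ := exists_sub_lt_one hx Q hQ
  have hxa : x - algebraMap K F a ≠ 0 := sub_ne_zero.mpr (hx.ne_algebraMap a)
  -- the prime of `Q`
  have hP : placeOfPrime (K := K) (S18.A.Defs.exists_prime hx hsep Q hQ).choose = Q :=
    (S18.A.Defs.exists_prime hx hsep Q hQ).choose_spec
  rw [S18.A.DiffLower.diffExp_eq_fin hx hsep hQ]
  unfold diffExpFin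
  generalize (S18.A.Defs.exists_prime hx hsep Q hQ).choose = P at hP ⊢
  -- the prime `(x - a)` of `K[x]`
  let p : Ideal (polyRing K x) := Ideal.span {tA K x a}
  have hpmax : p.IsMaximal :=
    PrincipalIdealRing.isMaximal_of_irreducible (irreducible_tA hx.transcendental a)
  have hp0 : p ≠ ⊥ := by
    rw [Ne, Ideal.span_singleton_eq_bot]
    exact tA_ne_zero hx.transcendental a
  let tB : intRing K x := algebraMap (polyRing K x) (intRing K x) (tA K x a)
  have htB : algebraMap (intRing K x) F tB = x - algebraMap K F a := rfl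
  have htB0 : tB ≠ 0 := by
    intro h0
    apply hxa
    rw [← htB, h0, map_zero]
  have hmemP : tB ∈ P.asIdeal := by
    have h1 := (Fermat.Agent.S24.Ord.ord_pos_iff Q hxa).mpr hQa
    rw [← hP, ← htB, placeOfPrime_ord_pos_iff] at h1
    exact h1.2
  have hlies : P.asIdeal.LiesOver p := by
    rw [Ideal.liesOver_iff, Ideal.under_def]
    refine hpmax.eq_of_le (Ideal.comap_ne_top _ P.isPrime.ne_top) ?_
    rw [Ideal.span_le, Set.singleton_subset_iff]
    exact hmemP
  -- residue fields are `K`
  have hres : ∀ (q : HeightOneSpectrum (intRing K x)) (b : intRing K x),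
      ∃ c : K, b - algebraMap K (intRing K x) c ∈ q.asIdeal := by
    intro q b
    have hb : (placeOfPrime (K := K) q).adicValuation (algebraMap (intRing K x) F b) ≤ 1 := by
      rw [S18.A.DiffLower.adicValuation_placeOfPrime]
      exact q.valuation_le_one b
    obtain ⟨c, hc⟩ := exists_sub_lt_one hx (placeOfPrime (K := K) q) hb
    refine ⟨c, ?_⟩
    rw [S18.A.DiffLower.adicValuation_placeOfPrime] at hc
    have h2 : algebraMap (intRing K x) F b - algebraMap K F c =
        algebraMap (intRing K x) F (b - algebraMap K (intRing K x) c) := by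
      rw [map_sub]
      rfl
    rw [h2, HeightOneSpectrum.valuation_lt_one_iff_mem] at hc
    exact hc
  have hf : ∀ q : p.primesOver (intRing K x), q.1.inertiaDeg (polyRing K x) = 1 := by
    intro q
    haveI := q.2.1
    haveI := q.2.2
    have hq0 : q.1 ≠ ⊥ := Ideal.ne_bot_of_liesOver_of_ne_bot hp0 q.1
    haveI : q.1.IsMaximal := q.2.1.isMaximal hq0
    exact inertiaDeg_eq_one_of_residue K p q.1 (hres ⟨q.1, q.2.1, hq0⟩)
  haveI : Infinite (polyRing K x) :=
    Infinite.of_injective (algebraMap K (polyRing K x)) (algebraMap K (polyRing K x)).injective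
  -- the good parameter
  let Pp : p.primesOver (intRing K x) := ⟨P.asIdeal, P.isPrime, hlies⟩
  obtain ⟨π, hπ1, hπ2, hπ3, hprim⟩ :=
    Param.exists_good_param (polyRing K x) K⟮x⟯ F (B := intRing K x) p hp0 Pp
  have hdiff := Local.diffExpAt_le_multiplicity (polyRing K x) K⟮x⟯ F (B := intRing K x) P π hprim
  have hcoeff := Local.multiplicity_coeff_zero_eq_one (polyRing K x) K⟮x⟯ F (B := intRing K x)
    p hp0 hf Pp π hπ1 hπ2 hπ3 hprim
  have hder0 := Local.aeval_derivative_minpoly_ne_zero (polyRing K x) K⟮x⟯ F (B := intRing K x) π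
  set f := minpoly (polyRing K x) π with hf_def
  have hint : IsIntegral (polyRing K x) π := IsIntegralClosure.isIntegral (polyRing K x) F π
  have hπ0 : π ≠ 0 := by
    rintro rfl
    exact hπ2 (Ideal.zero_mem _)
  have hPprime : Prime P.asIdeal := P.prime
  -- `ord_Q π = 1`
  have hordπ : Q.ord (algebraMap (intRing K x) F π) = 1 := by
    rw [← hP, placeOfPrime_ord_algebraMap P hπ0]
    have hspan : Ideal.span {π} ≠ ⊥ := by
      rw [Ne, Ideal.span_singleton_eq_bot]
      exact hπ0
    have hfm : FiniteMultiplicity P.asIdeal (Ideal.span {π}) :=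
      FiniteMultiplicity.of_prime_left hPprime hspan
    have : multiplicity P.asIdeal (Ideal.span {π}) = 1 := by
      refine hfm.multiplicity_eq_iff.mpr ⟨?_, ?_⟩
      · rw [pow_one, Ideal.dvd_iff_le, Ideal.span_singleton_le_iff_mem]
        exact hπ1
      · rw [Ideal.dvd_iff_le, Ideal.span_singleton_le_iff_mem]
        exact hπ2
    rw [this, Nat.cast_one]
  -- `ord_Q f'(π) ≥ d_Q`
  have hordf' : (diffExpAt (polyRing K x) P : ℤ) ≤
      Q.ord (algebraMap (intRing K x) F (aeval π (derivative f))) := by
    rw [← hP, placeOfPrime_ord_algebraMap P hder0]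
    exact_mod_cast hdiff
  -- the constant coefficient
  have ha0 : f.coeff 0 ≠ 0 := by
    have hπF0 : algebraMap (intRing K x) F π ≠ 0 :=
      (map_ne_zero_iff _ (IsFractionRing.injective (intRing K x) F)).mpr hπ0
    have h1 := minpoly.coeff_zero_ne_zero
      (Algebra.IsIntegral.isIntegral (R := K⟮x⟯) (algebraMap (intRing K x) F π)) hπF0
    rw [minpoly.isIntegrallyClosed_eq_field_fractions K⟮x⟯ F hint, coeff_map] at h1
    intro h0
    apply h1
    rw [← hf_def, h0, map_zero]
  have hpprime : Prime p := Ideal.prime_of_isPrime hp0 hpmax.isPrime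
  have hspan0 : Ideal.span {f.coeff 0} ≠ ⊥ := by
    rw [Ne, Ideal.span_singleton_eq_bot]
    exact ha0
  have hfm0 : FiniteMultiplicity p (Ideal.span {f.coeff 0}) :=
    FiniteMultiplicity.of_prime_left hpprime hspan0
  obtain ⟨hc1, hc2⟩ := hfm0.multiplicity_eq_iff.mp hcoeff
  rw [pow_one, Ideal.dvd_iff_le, Ideal.span_singleton_le_iff_mem] at hc1
  rw [Ideal.dvd_iff_le, Ideal.span_singleton_le_iff_mem] at hc2
  obtain ⟨r, hr⟩ := Ideal.mem_span_singleton'.mp hc1
  have hrp : r ∉ p := by
    intro hrp
    apply hc2
    rw [← hr, pow_two]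
    exact Ideal.mul_mem_mul hrp (Ideal.subset_span rfl)
  -- derivative of the constant coefficient
  obtain ⟨r', hr'⟩ := exists_deriv_polyRing D r
  have htF : ((tA K x a : polyRing K x) : F) = x - algebraMap K F a := rfl
  have hDt : D ((tA K x a : polyRing K x) : F) = D x := by
    rw [htF, map_sub, Derivation.map_algebraMap, sub_zero]
  have hc₀ : D ((f.coeff 0 : polyRing K x) : F) = ((r + tA K x a * r' : polyRing K x) : F) • D x := by
    rw [← hr]
    push_cast
    rw [Derivation.leibniz, hDt, hr', smul_smul, ← add_smul]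
  obtain ⟨w, hw⟩ := chain1 D (algebraMap (intRing K x) F π) f _ hc₀
  have hzero : aeval (algebraMap (intRing K x) F π) f = 0 := by
    rw [aeval_algebraMap_apply, minpoly.aeval, map_zero]
  rw [hzero, map_zero, aeval_algebraMap_apply, aeval_algebraMap_apply] at hw
  -- the unit `u`
  set uB : intRing K x := algebraMap (polyRing K x) (intRing K x) (r + tA K x a * r') +
    π * aeval π w with huB
  have huF : algebraMap (intRing K x) F uB =
      ((r + tA K x a * r' : polyRing K x) : F) + algebraMap (intRing K x) F π *
        algebraMap (intRing K x) F (aeval π w) := by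
    rw [huB, map_add, map_mul]
    rfl
  rw [← huF] at hw
  have huP : uB ∉ P.asIdeal := by
    intro hmem
    apply hrp
    have h1 : algebraMap (polyRing K x) (intRing K x) r ∈ P.asIdeal := by
      have h2 : algebraMap (polyRing K x) (intRing K x) r =
          uB - (tB * algebraMap (polyRing K x) (intRing K x) r' + π * aeval π w) := by
        rw [huB, map_add, map_mul]
        ring
      rw [h2]
      exact Ideal.sub_mem _ hmem
        (Ideal.add_mem _ (Ideal.mul_mem_right _ _ hmemP) (Ideal.mul_mem_right _ _ hπ1))
    have h3 : r ∈ P.asIdeal.under (polyRing K x) := h1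
    rw [← Ideal.over_def P.asIdeal p] at h3
    exact h3
  have hu0 : uB ≠ 0 := by
    rintro h
    exact huP (h ▸ Ideal.zero_mem _)
  have hordu : Q.ord (algebraMap (intRing K x) F uB) = 0 := by
    rw [← hP, placeOfPrime_ord_algebraMap P hu0]
    have : multiplicity P.asIdeal (Ideal.span {uB}) = 0 := by
      rw [multiplicity_eq_zero, Ideal.dvd_iff_le, Ideal.span_singleton_le_iff_mem]
      exact huP
    rw [this, Nat.cast_zero]
  -- conclusion
  have huF0 : algebraMap (intRing K x) F uB ≠ 0 :=
    (map_ne_zero_iff _ (IsFractionRing.injective (intRing K x) F)).mpr hu0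
  have hfF0 : algebraMap (intRing K x) F (aeval π (derivative f)) ≠ 0 :=
    (map_ne_zero_iff _ (IsFractionRing.injective (intRing K x) F)).mpr hder0
  refine ⟨algebraMap (intRing K x) F π,
    -(algebraMap (intRing K x) F uB) * (algebraMap (intRing K x) F (aeval π (derivative f)))⁻¹,
    hordπ, mul_ne_zero (neg_ne_zero.mpr huF0) (inv_ne_zero hfF0), ?_, ?_⟩
  · have h1 : algebraMap (intRing K x) F (aeval π (derivative f)) •
        D (algebraMap (intRing K x) F π) = -(algebraMap (intRing K x) F uB • D x) := by
      rw [eq_neg_iff_add_eq_zero, add_comm]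
      exact hw.symm
    have h2 : D (algebraMap (intRing K x) F π) =
        (algebraMap (intRing K x) F (aeval π (derivative f)))⁻¹ •
          (algebraMap (intRing K x) F (aeval π (derivative f)) •
            D (algebraMap (intRing K x) F π)) := by
      rw [smul_smul, inv_mul_cancel₀ hfF0, one_smul]
    rw [h2, h1, smul_neg, smul_smul, ← neg_smul]
    congr 1
    ring
  · rw [Place.ord_mul _ (neg_ne_zero.mpr huF0) (inv_ne_zero hfF0), Place.ord_inv]
    have hneg : Q.ord (-(algebraMap (intRing K x) F uB)) = 0 := by
      have h4 : -(algebraMap (intRing K x) F uB) = algebraMap (intRing K x) F (-uB) := by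
        rw [map_neg]
      have hnu0 : -uB ≠ 0 := neg_ne_zero.mpr hu0
      rw [h4, ← hP, placeOfPrime_ord_algebraMap P hnu0]
      have : multiplicity P.asIdeal (Ideal.span {-uB}) = 0 := by
        rw [multiplicity_eq_zero, Ideal.dvd_iff_le, Ideal.span_singleton_le_iff_mem]
        intro h5
        exact huP (by simpa using Ideal.neg_mem_iff _ |>.mp h5)
      rw [this, Nat.cast_zero]
    rw [hneg]
    linarith

end Fermat.Agent.S36.HurwitzCount.Bridge
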