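/-
PROJECT V (S36), slice V-HurwitzCount (helper17), file 5/7: **the count** (ledger C1-count (iii)+(iv),
referee report #2517 (C)): no modular forms, only the Hurwitz formula of `x = j̄` on the function
field `F = κ(X₀(M'))` over `K = k` algebraically closed of ANY characteristic.

Data: a `K`-derivation `D : F → L` into an extension field (`L = k((t))`, `D = θ`), an exponent
`m` (`= q - 1`) and `G ∈ F` with `(D x) ^ m = G`, `ord_Q G = m ord_Q x` at the poles of `x`, tame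
poles, a finite set `S1` of non-poles with `2 #S1 ≤ m (2g - 2 + c)` (`c` = number of poles of `x`),
and the ONE-SIDED local bounds: for every local parameter `π` at a non-pole `Q`, the element
`Θ ∈ F` with `(D π) ^ m = Θ` has `ord_Q Θ ≥ -2` if `Q ∈ S1` and `ord_Q Θ ≥ 0` otherwise.

Conclusion (`count_eq`): at EVERY non-pole `Q₀` there is a local parameter `π` with
`D π = z • D x`, `ord z = - d_Q₀` and `ord_Q₀ ((D π) ^ m) = -2` if `Q₀ ∈ S1`, `= 0` otherwise.

Proof: `ord_Q (z_Q ^ m G) ≤ - m d_Q + ord_Q G` (`Bridge.exists_param_deriv`), sum over the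
non-poles with `deg W = 2g - 2 + 2n` (`S18.A.Hurwitz.degree_diffDivisor`), `deg (G) = 0`,
`∑_{poles} (- ord x) = n`, `d_Q = e_Q - 1` at the poles: the sum is `≤ - m (2g - 2 + c) ≤ - 2 #S1`
`≤` the sum of the lower bounds, so all inequalities are equalities.
-/
import Mathlib
import Fermat.Agent.S18.A.Hurwitz
import Fermat.Agent.S36.HurwitzCount.Bridge

set_option autoImplicit false
set_option linter.unusedSectionVars false
set_option linter.style.haveILetI false

namespace Fermat.Agent.S36.HurwitzCount.Count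

open AlgebraicCurve IntermediateField
  Fermat.Agent.S24.FF Fermat.Agent.S24.Ord Fermat.Agent.S18.A.Defs Fermat.Agent.S18.A.FibreSep
  Fermat.Agent.S18.A.DiffDivisor

universe u w

variable {K : Type w} {F : Type u} [Field K] [Field F] [Algebra K F] [IsAlgClosed K] {x : F}

/-- the degree of a divisor as a sum over any finite set containing its support (all places have
degree one) -/
theorem degree_eq_sum (hx : IsFF K x) (E : Divisor K F) (S : Finset (Place K F))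
    (hS : E.support ⊆ S) : Divisor.degree E = ∑ Q ∈ S, E Q := by
  unfold Divisor.degree
  rw [Finsupp.liftAddHom_apply, Finsupp.sum]
  have h1 : ∀ Q ∈ E.support, (AddMonoidHom.mulRight ((Q.deg : ℕ) : ℤ)) (E Q) = E Q := by
    intro Q _
    rw [AddMonoidHom.mulRight_apply, Fermat.Agent.S24.Ord.deg_eq_one hx Q]
    simp
  rw [Finset.sum_congr rfl h1]
  refine Finset.sum_subset hS ?_
  intro Q _ hQ
  exact Finsupp.notMem_support_iff.mp hQ

/-- the order of a power -/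
theorem ord_pow (Q : Place K F) (f : F) (n : ℕ) : Q.ord (f ^ n) = n * Q.ord f := by
  rw [← zpow_natCast, Place.ord_zpow]

variable {L : Type*} [Field L] [Algebra F L] [Algebra K L] [IsScalarTower K F L]

/-- `(D π) ^ m = z ^ m G` if `D π = z • D x` and `(D x) ^ m = G` -/
theorem pow_deriv_eq (D : Derivation K F L) (m : ℕ) (G : F)
    (hDx : (D x) ^ m = algebraMap F L G) {π z : F} (h : D π = z • D x) :
    (D π) ^ m = algebraMap F L (z ^ m * G) := by
  rw [h, Algebra.smul_def, mul_pow, hDx, map_mul, map_pow]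

set_option maxHeartbeats 800000 in
/-- **The count.**  See the header of this file. -/
theorem count_eq (hx : IsFF K x) (hsep : Algebra.IsSeparable K⟮x⟯ F) {g : ℕ}
    (hR : Fermat.Agent.S18.NonSpecial.RiemannHyp K F g)
    (D : Derivation K F L) (m : ℕ) (hm : 0 < m) (G : F) (hG0 : G ≠ 0)
    (hDx : (D x) ^ m = algebraMap F L G) (hGdiv : HasDivZero K G)
    (hGpole : ∀ Q ∈ poles hx hsep, Q.ord G = m * Q.ord x)
    (htame : ∀ Q ∈ poles hx hsep, (diffExp hx hsep Q : ℤ) = -Q.ord x - 1)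
    (S1 : Finset (Place K F)) (hS1 : ∀ Q ∈ S1, Q ∉ poles hx hsep)
    (hS : 2 * (S1.card : ℤ) ≤ m * (2 * (g : ℤ) - 2 + (poles hx hsep).card))
    (hb1 : ∀ Q ∈ S1, ∀ π Θ : F, Q.ord π = 1 → (D π) ^ m = algebraMap F L Θ → -2 ≤ Q.ord Θ)
    (hb0 : ∀ Q, Q ∉ S1 → Q ∉ poles hx hsep → ∀ π Θ : F, Q.ord π = 1 →
      (D π) ^ m = algebraMap F L Θ → 0 ≤ Q.ord Θ)
    (Q₀ : Place K F) (hQ₀ : Q₀ ∉ poles hx hsep) :
    ∃ π z : F, Q₀.ord π = 1 ∧ z ≠ 0 ∧ D π = z • D x ∧
      Q₀.ord z = -(diffExp hx hsep Q₀ : ℤ) ∧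
      (D π) ^ m = algebraMap F L (z ^ m * G) ∧
      (Q₀ ∈ S1 → Q₀.ord (z ^ m * G) = -2) ∧ (Q₀ ∉ S1 → Q₀.ord (z ^ m * G) = 0) := by
  classical
  -- `x` is regular at the non-poles
  have hreg : ∀ Q, Q ∉ poles hx hsep → Q.adicValuation x ≤ 1 := fun Q hQ =>
    not_lt.mp fun h => hQ ((mem_poles hx hsep Q).mpr h)
  -- local data
  have hloc : ∀ Q : Place K F, ∃ π z : F, Q ∉ poles hx hsep →
      (Q.ord π = 1 ∧ z ≠ 0 ∧ D π = z • D x ∧ Q.ord z ≤ -(diffExp hx hsep Q : ℤ)) := by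
    intro Q
    by_cases hQ : Q ∈ poles hx hsep
    · exact ⟨0, 0, fun h => absurd hQ h⟩
    · obtain ⟨π, z, h⟩ := Bridge.exists_param_deriv hx hsep D Q (hreg Q hQ)
      exact ⟨π, z, fun _ => h⟩
  choose π z hπz using hloc
  -- the local orders
  have hν : ∀ Q, Q ∉ poles hx hsep →
      Q.ord (z Q ^ m * G) = m * Q.ord (z Q) + Q.ord G := by
    intro Q hQ
    rw [Place.ord_mul _ (pow_ne_zero _ (hπz Q hQ).2.1) hG0, ord_pow]
  have hΘ : ∀ Q, Q ∉ poles hx hsep → (D (π Q)) ^ m = algebraMap F L (z Q ^ m * G) :=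
    fun Q hQ => pow_deriv_eq D m G hDx (hπz Q hQ).2.2.1
  let lb : Place K F → ℤ := fun Q => if Q ∈ S1 then -2 else 0
  have hlb : ∀ Q, Q ∉ poles hx hsep → lb Q ≤ Q.ord (z Q ^ m * G) := by
    intro Q hQ
    by_cases hQS : Q ∈ S1
    · simp only [lb, if_pos hQS]
      exact hb1 Q hQS _ _ (hπz Q hQ).1 (hΘ Q hQ)
    · simp only [lb, if_neg hQS]
      exact hb0 Q hQS hQ _ _ (hπz Q hQ).1 (hΘ Q hQ)
  have hub : ∀ Q, Q ∉ poles hx hsep →
      Q.ord (z Q ^ m * G) ≤ -(m * (diffExp hx hsep Q : ℤ)) + Q.ord G := by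
    intro Q hQ
    rw [hν Q hQ]
    have h1 := (hπz Q hQ).2.2.2
    have h2 : (m : ℤ) * Q.ord (z Q) ≤ m * -(diffExp hx hsep Q : ℤ) :=
      mul_le_mul_of_nonneg_left h1 (Int.natCast_nonneg m)
    linarith
  -- the divisors
  obtain ⟨DG, hDG, hDG0⟩ := hGdiv
  set W := diffDivisor hx hsep with hW
  set P := poles hx hsep with hPdef
  set n : ℤ := (Module.finrank K⟮x⟯ F : ℤ) with hn
  let T : Finset (Place K F) := (S1 ∪ W.support ∪ DG.support ∪ {Q₀}).filter (· ∉ P)
  have hTP : Disjoint T P := by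
    rw [Finset.disjoint_left]
    intro Q hQT hQP
    exact (Finset.mem_filter.mp hQT).2 hQP
  have hTnp : ∀ Q ∈ T, Q ∉ P := fun Q hQ => (Finset.mem_filter.mp hQ).2
  have hS1T : S1 ⊆ T := by
    intro Q hQ
    refine Finset.mem_filter.mpr ⟨?_, hS1 Q hQ⟩
    simp [hQ]
  have hQ₀T : Q₀ ∈ T := by
    refine Finset.mem_filter.mpr ⟨?_, hQ₀⟩
    simp
  -- sum of the different exponents over `T`
  have hsumd : ∑ Q ∈ T, (diffExp hx hsep Q : ℤ) = 2 * (g : ℤ) - 2 + n + P.card := by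
    have h1 := degree_diffDivisor_eq_sum hx hsep (T ∪ P) (by
      intro Q hQ
      rw [Finset.mem_union, not_or] at hQ
      by_contra hne
      apply hQ.1
      refine Finset.mem_filter.mpr ⟨?_, hQ.2⟩
      have : Q ∈ W.support := (mem_support_diffDivisor hx hsep Q).mpr hne
      simp [this])
    rw [Fermat.Agent.S18.A.Hurwitz.degree_diffDivisor hx hsep hR, Finset.sum_union hTP] at h1
    have h2 : ∑ Q ∈ P, (diffExp hx hsep Q : ℤ) = n - P.card := by
      rw [Finset.sum_congr rfl htame, Finset.sum_sub_distrib, sum_poles hx hsep]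
      simp only [Finset.sum_const, nsmul_eq_mul, mul_one]
      rw [hn]
    linarith
  -- sum of the orders of `G` over `T`
  have hsumG : ∑ Q ∈ T, Q.ord G = m * n := by
    have h1 := degree_eq_sum hx DG (T ∪ P) (by
      intro Q hQ
      by_cases hQP : Q ∈ P
      · exact Finset.mem_union_right _ hQP
      · refine Finset.mem_union_left _ (Finset.mem_filter.mpr ⟨?_, hQP⟩)
        simp [hQ])
    rw [hDG0, Finset.sum_union hTP] at h1
    simp only [hDG] at h1
    have h2 : ∑ Q ∈ P, Q.ord G = -(m * n) := by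
      rw [Finset.sum_congr rfl hGpole, ← Finset.mul_sum, hn, ← sum_poles hx hsep,
        Finset.sum_neg_distrib]
      ring
    linarith
  -- sum of the lower bounds
  have hsumlb : ∑ Q ∈ T, lb Q = -2 * (S1.card : ℤ) := by
    have h1 : ∑ Q ∈ T, lb Q = ∑ Q ∈ S1, (-2 : ℤ) := by
      rw [← Finset.sum_filter_add_sum_filter_not T (· ∈ S1)]
      have h2 : T.filter (· ∈ S1) = S1 := by
        ext Q
        rw [Finset.mem_filter]
        exact ⟨fun h => h.2, fun h => ⟨hS1T h, h⟩⟩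
      rw [h2]
      have h3 : ∑ Q ∈ T.filter (fun Q => ¬ Q ∈ S1), lb Q = 0 := by
        refine Finset.sum_eq_zero fun Q hQ => ?_
        simp only [lb, if_neg (Finset.mem_filter.mp hQ).2]
      rw [h3, add_zero]
      refine Finset.sum_congr rfl fun Q hQ => ?_
      simp only [lb, if_pos hQ]
    rw [h1, Finset.sum_const, nsmul_eq_mul]
    ring
  -- the sandwich
  have hsumub : ∑ Q ∈ T, (-(m * (diffExp hx hsep Q : ℤ)) + Q.ord G) =
      -(m * (2 * (g : ℤ) - 2 + P.card)) := by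
    rw [Finset.sum_add_distrib, Finset.sum_neg_distrib, ← Finset.mul_sum, hsumd, hsumG]
    ring
  have hle1 : ∑ Q ∈ T, lb Q ≤ ∑ Q ∈ T, Q.ord (z Q ^ m * G) :=
    Finset.sum_le_sum fun Q hQ => hlb Q (hTnp Q hQ)
  have hle2 : ∑ Q ∈ T, Q.ord (z Q ^ m * G) ≤
      ∑ Q ∈ T, (-(m * (diffExp hx hsep Q : ℤ)) + Q.ord G) :=
    Finset.sum_le_sum fun Q hQ => hub Q (hTnp Q hQ)
  have heq1 : ∑ Q ∈ T, lb Q = ∑ Q ∈ T, Q.ord (z Q ^ m * G) := by
    apply le_antisymm hle1
    rw [hsumlb]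
    rw [hsumub] at hle2
    linarith
  have heq2 : ∑ Q ∈ T, Q.ord (z Q ^ m * G) =
      ∑ Q ∈ T, (-(m * (diffExp hx hsep Q : ℤ)) + Q.ord G) := by
    apply le_antisymm hle2
    rw [← heq1, hsumlb, hsumub]
    linarith
  have hterm1 := (Finset.sum_eq_sum_iff_of_le fun Q hQ => hlb Q (hTnp Q hQ)).mp heq1 Q₀ hQ₀T
  have hterm2 := (Finset.sum_eq_sum_iff_of_le fun Q hQ => hub Q (hTnp Q hQ)).mp heq2 Q₀ hQ₀T
  obtain ⟨h1, h2, h3, h4⟩ := hπz Q₀ hQ₀
  refine ⟨π Q₀, z Q₀, h1, h2, h3, ?_, hΘ Q₀ hQ₀, ?_, ?_⟩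
  · rw [hν Q₀ hQ₀] at hterm2
    have h5 : (m : ℤ) * Q₀.ord (z Q₀) = m * -(diffExp hx hsep Q₀ : ℤ) := by linarith
    have hm' : (m : ℤ) ≠ 0 := by exact_mod_cast hm.ne'
    exact mul_left_cancel₀ hm' h5
  · intro hQS
    rw [← hterm1]
    simp only [lb, if_pos hQS]
  · intro hQS
    rw [← hterm1]
    simp only [lb, if_neg hQS]

end Fermat.Agent.S36.HurwitzCount.Count
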