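/-
PROJECT V (S36), slice V-HurwitzCount (helper17), file 6/7: INDEPENDENCE of the local parameter.

Setting as in `Bridge`: `K` algebraically closed, `F/K` a function field with separating element
`x`, `D : Derivation K F M` into an `F`-vector space, `Q` a place at which `x` is regular.

* `exists_eq_smul`   : every `D y` is an `F`-multiple of `D x` (`F / K(x)` separable algebraic);
* `exists_bound_val` : a uniform bound: `D y = y' • D x`, `v_Q y' ≤ γ` for all `y ∈ O_Q`
                       (finite generation of the integral closure of `K[x]` + localisation);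
* `deriv_mem`        : **`d/dπ` preserves the valuation ring**: for a local parameter `π` at `Q`
                       with `D π ≠ 0`, every `y ∈ O_Q` has `D y = y' • D π` with `y' ∈ O_Q`
                       (Taylor expansion `y = c + π y₁`, the bound improves by `v(π)` each step);
* `ord_indep`        : if `π, π'` are local parameters at `Q`, `D π = z • D x`, `D π' = z' • D x`,
                       then `ord_Q z = ord_Q z'`: **`ord_Q ((D π) ^ m)` does not depend on the local
                       parameter `π`**.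
-/
import Mathlib
import Fermat.Agent.S36.HurwitzCount.Bridge

set_option autoImplicit false
set_option linter.unusedSectionVars false
set_option linter.overlappingInstances false
set_option linter.style.haveILetI false

namespace Fermat.Agent.S36.HurwitzCount.Indep

open AlgebraicCurve IsDedekindDomain IntermediateField Polynomial WithZero
  Fermat.Agent.S24.PlacePrime Fermat.Agent.S24.FF Fermat.Agent.S24.Ord Fermat.Agent.S24.Fibre
  Fermat.Agent.S18.A.Defs
open scoped IntermediateField.algebraAdjoinAdjoin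

universe u w

variable {K : Type w} {F : Type u} [Field K] [Field F] [Algebra K F] {x : F}
variable {M : Type*} [AddCommGroup M] [Module K M] [Module F M] [IsScalarTower K F M]

set_option synthInstance.maxHeartbeats 400000 in
/-- the derivative of an integral element is a multiple of `D x` -/
theorem exists_deriv_int (hx : IsFF K x) (hsep : Algebra.IsSeparable K⟮x⟯ F)
    (D : Derivation K F M) (b : intRing K x) :
    ∃ b' : F, D (algebraMap (intRing K x) F b) = b' • D x := by
  have hDed := S18.A.Defs.isDedekind hx hsep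
  have hFr := S18.A.Defs.isFractionRing hx
  have hfin := S18.A.Defs.moduleFinite hx hsep
  have hpid := isPID hx.transcendental
  have hKL : FiniteDimensional K⟮x⟯ F := hx.finite
  have hder0 := Local.aeval_derivative_minpoly_ne_zero (polyRing K x) K⟮x⟯ F (B := intRing K x) b
  obtain ⟨w, hw⟩ := Bridge.chain0 D (algebraMap (intRing K x) F b) (minpoly (polyRing K x) b)
  have hzero : aeval (algebraMap (intRing K x) F b) (minpoly (polyRing K x) b) = 0 := by
    rw [aeval_algebraMap_apply, minpoly.aeval, map_zero]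
  rw [hzero, map_zero, aeval_algebraMap_apply, aeval_algebraMap_apply] at hw
  have hfF0 : algebraMap (intRing K x) F (aeval b (derivative (minpoly (polyRing K x) b))) ≠ 0 :=
    (map_ne_zero_iff _ (IsFractionRing.injective (intRing K x) F)).mpr hder0
  set u := algebraMap (intRing K x) F (aeval b w) with hu
  set f' := algebraMap (intRing K x) F (aeval b (derivative (minpoly (polyRing K x) b))) with hf'
  refine ⟨-u * f'⁻¹, ?_⟩
  have h1 : f' • D (algebraMap (intRing K x) F b) = -(u • D x) := by
    rw [eq_neg_iff_add_eq_zero, add_comm]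
    exact hw.symm
  have h2 : D (algebraMap (intRing K x) F b) =
      f'⁻¹ • (f' • D (algebraMap (intRing K x) F b)) := by
    rw [smul_smul, inv_mul_cancel₀ hfF0, one_smul]
  rw [h2, h1, smul_neg, smul_smul, ← neg_smul]
  congr 1
  ring

set_option synthInstance.maxHeartbeats 400000 in
/-- uniform bound for the derivatives of the integral elements -/
theorem exists_bound_int (hx : IsFF K x) (hsep : Algebra.IsSeparable K⟮x⟯ F)
    (D : Derivation K F M) (Q : Place K F) (hQ : Q.adicValuation x ≤ 1) :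
    ∃ γ : ℤᵐ⁰, 1 ≤ γ ∧ ∀ b : intRing K x, ∃ b' : F,
      D (algebraMap (intRing K x) F b) = b' • D x ∧ Q.adicValuation b' ≤ γ := by
  classical
  have hfin := S18.A.Defs.moduleFinite hx hsep
  obtain ⟨s, hs⟩ := (Module.Finite.fg_top (R := polyRing K x) (M := intRing K x))
  choose d hd using exists_deriv_int hx hsep D
  obtain ⟨γ₀, hγ₀⟩ := (s.image fun b => Q.adicValuation (d b)).exists_le
  refine ⟨max 1 γ₀, le_max_left _ _, ?_⟩
  have hA : ∀ a : polyRing K x, Q.adicValuation (a : F) ≤ 1 :=
    adicValuation_adjoin_le_one Q hQ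
  have hB : ∀ b : intRing K x, Q.adicValuation (b : F) ≤ 1 := fun b =>
    adicValuation_le_one_of_isIntegral Q hA b.2
  intro b
  have hb : b ∈ Submodule.span (polyRing K x) (s : Set (intRing K x)) := by
    rw [hs]
    trivial
  induction hb using Submodule.span_induction with
  | mem y hy =>
    exact ⟨d y, hd y, le_trans (hγ₀ _ (Finset.mem_image_of_mem _ hy)) (le_max_right _ _)⟩
  | zero => exact ⟨0, by simp, by simp⟩
  | add y z _ _ hy hz =>
    obtain ⟨y', hy1, hy2⟩ := hy
    obtain ⟨z', hz1, hz2⟩ := hz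
    exact ⟨y' + z', by rw [map_add, map_add, hy1, hz1, add_smul],
      le_trans (Valuation.map_add _ _ _) (max_le hy2 hz2)⟩
  | smul a y _ hy =>
    obtain ⟨y', hy1, hy2⟩ := hy
    obtain ⟨a', ha'⟩ := Bridge.exists_deriv_polyRing D a
    refine ⟨(a : F) * y' + (y : F) * (a' : F), ?_, ?_⟩
    · have h1 : algebraMap (intRing K x) F (a • y) =
          (a : F) * algebraMap (intRing K x) F y := by
        rw [Algebra.smul_def, map_mul]
        rfl
      rw [h1, Derivation.leibniz, hy1, ha', smul_smul, smul_smul, ← add_smul]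
      rfl
    · refine le_trans (Valuation.map_add _ _ _) (max_le ?_ ?_)
      · rw [map_mul]
        calc Q.adicValuation (a : F) * Q.adicValuation y' ≤ 1 * max 1 γ₀ :=
              mul_le_mul' (hA a) hy2
          _ = max 1 γ₀ := one_mul _
      · rw [map_mul]
        calc Q.adicValuation (y : F) * Q.adicValuation (a' : F) ≤ 1 * 1 :=
              mul_le_mul' (hB y) (hA a')
          _ = 1 := one_mul _
          _ ≤ max 1 γ₀ := le_max_left _ _

variable [IsAlgClosed K]

set_option synthInstance.maxHeartbeats 400000 in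
/-- **uniform bound on the valuation ring** `O_Q`: `D y = y' • D x` with `v_Q y' ≤ γ` -/
theorem exists_bound_val (hx : IsFF K x) (hsep : Algebra.IsSeparable K⟮x⟯ F)
    (D : Derivation K F M) (Q : Place K F) (hQ : Q.adicValuation x ≤ 1) :
    ∃ γ : ℤᵐ⁰, 1 ≤ γ ∧ ∀ y : F, Q.adicValuation y ≤ 1 → ∃ y' : F,
      D y = y' • D x ∧ Q.adicValuation y' ≤ γ := by
  classical
  have hDed := S18.A.Defs.isDedekind hx hsep
  have hFr := S18.A.Defs.isFractionRing hx
  obtain ⟨γ, hγ1, hγ⟩ := exists_bound_int hx hsep D Q hQ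
  obtain ⟨P, hP⟩ := S18.A.Defs.exists_prime hx hsep Q hQ
  refine ⟨γ, hγ1, fun y hy => ?_⟩
  have hy' : P.valuation F y ≤ 1 := by
    rw [← S18.A.DiffLower.adicValuation_placeOfPrime (K := K), hP]
    exact hy
  obtain ⟨b, s, hbs⟩ := P.exists_primeCompl_mul_eq_of_integer y hy'
  obtain ⟨b', hb1, hb2⟩ := hγ b
  obtain ⟨s', hs1, hs2⟩ := hγ s
  have hsv : Q.adicValuation (algebraMap (intRing K x) F s) = 1 := by
    rw [← hP, S18.A.DiffLower.adicValuation_placeOfPrime, HeightOneSpectrum.valuation_of_algebraMap,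
      P.intValuation_eq_one_iff_mem_primeCompl]
    exact s.2
  have hs0 : algebraMap (intRing K x) F s ≠ 0 := by
    intro h0
    rw [h0, map_zero] at hsv
    exact zero_ne_one hsv
  set sF := algebraMap (intRing K x) F s with hsF
  refine ⟨(b' - y * s') * sF⁻¹, ?_, ?_⟩
  · have h1 : D (y * sF) = b' • D x := by
      rw [hbs]
      exact hb1
    rw [Derivation.leibniz, hs1, smul_smul] at h1
    have h2 : sF • D y = (b' - y * s') • D x := by
      rw [sub_smul, ← h1]
      abel
    have h3 : D y = sF⁻¹ • (sF • D y) := by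
      rw [smul_smul, inv_mul_cancel₀ hs0, one_smul]
    rw [h3, h2, smul_smul, mul_comm]
  · rw [map_mul, map_inv₀, hsv, inv_one, mul_one]
    refine le_trans (Valuation.map_sub _ _ _) (max_le hb2 ?_)
    rw [map_mul]
    calc Q.adicValuation y * Q.adicValuation s' ≤ 1 * γ := mul_le_mul' hy hs2
      _ = γ := one_mul _

/-- **every derivative is an `F`-multiple of `D x`** -/
theorem exists_eq_smul (hx : IsFF K x) (hsep : Algebra.IsSeparable K⟮x⟯ F)
    (D : Derivation K F M) (y : F) : ∃ y' : F, D y = y' • D x := by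
  have hFr := S18.A.Defs.isFractionRing hx
  obtain ⟨b, s, hs, rfl⟩ := IsFractionRing.div_surjective (A := intRing K x) y
  obtain ⟨b', hb⟩ := exists_deriv_int hx hsep D b
  obtain ⟨s', hs'⟩ := exists_deriv_int hx hsep D s
  have hs0 : algebraMap (intRing K x) F s ≠ 0 :=
    (map_ne_zero_iff _ (IsFractionRing.injective (intRing K x) F)).mpr
      (nonZeroDivisors.ne_zero hs)
  set bF := algebraMap (intRing K x) F b
  set sF := algebraMap (intRing K x) F s
  refine ⟨(b' - bF / sF * s') * sF⁻¹, ?_⟩
  have h1 : D (bF / sF * sF) = b' • D x := by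
    rw [div_mul_cancel₀ _ hs0]
    exact hb
  rw [Derivation.leibniz, hs', smul_smul] at h1
  have h2 : sF • D (bF / sF) = (b' - bF / sF * s') • D x := by
    rw [sub_smul, ← h1]
    abel
  have h3 : D (bF / sF) = sF⁻¹ • (sF • D (bF / sF)) := by
    rw [smul_smul, inv_mul_cancel₀ hs0, one_smul]
  rw [h3, h2, smul_smul, mul_comm]

/-- one Taylor step: the bound improves by the factor `v(π)` -/
theorem deriv_bound_step (hx : IsFF K x) (D : Derivation K F M) (Q : Place K F)
    {π : F} (hπ : Q.ord π = 1) (β : ℤᵐ⁰)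
    (h : ∀ y : F, Q.adicValuation y ≤ 1 → ∃ y' : F, D y = y' • D π ∧ Q.adicValuation y' ≤ β) :
    ∀ y : F, Q.adicValuation y ≤ 1 → ∃ y' : F, D y = y' • D π ∧
      Q.adicValuation y' ≤ max 1 (exp (-1) * β) := by
  intro y hy
  have hπ0 : π ≠ 0 := by
    rintro rfl
    simp at hπ
  have hvπ : Q.adicValuation π = exp (-1) := by
    rw [adicValuation_eq Q hπ0, hπ]
  obtain ⟨c, hc⟩ := exists_sub_lt_one hx Q hy
  -- `y = c + π y₁`
  set y₁ := (y - algebraMap K F c) * π⁻¹ with hy₁
  have hy₁v : Q.adicValuation y₁ ≤ 1 := by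
    rcases eq_or_ne (y - algebraMap K F c) 0 with h0 | h0
    · rw [hy₁, h0, zero_mul, map_zero]
      exact zero_le_one
    · have h1 : y₁ ≠ 0 := mul_ne_zero h0 (inv_ne_zero hπ0)
      rw [← ord_nonneg_iff Q h1, hy₁, Place.ord_mul _ h0 (inv_ne_zero hπ0), Place.ord_inv, hπ]
      have := (ord_pos_iff Q h0).mpr hc
      omega
  obtain ⟨y₁', h1, h2⟩ := h y₁ hy₁v
  have hyeq : y = algebraMap K F c + π * y₁ := by
    rw [hy₁, mul_comm (y - algebraMap K F c), ← mul_assoc, mul_inv_cancel₀ hπ0, one_mul]
    ring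
  refine ⟨π * y₁' + y₁, ?_, ?_⟩
  · conv_lhs => rw [hyeq]
    rw [map_add, Derivation.map_algebraMap, zero_add, Derivation.leibniz, h1, smul_smul,
      ← add_smul]
  · refine le_trans (Valuation.map_add _ _ _) (max_le ?_ ?_)
    · rw [map_mul, hvπ]
      exact le_trans (mul_le_mul' le_rfl h2) (le_max_right _ _)
    · exact le_trans hy₁v (le_max_left _ _)

/-- **`d/dπ` preserves the valuation ring** -/
theorem deriv_mem (hx : IsFF K x) (hsep : Algebra.IsSeparable K⟮x⟯ F)
    (D : Derivation K F M) (Q : Place K F) (hQ : Q.adicValuation x ≤ 1)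
    {π z : F} (hπ : Q.ord π = 1) (hz : z ≠ 0) (hπz : D π = z • D x) :
    ∀ y : F, Q.adicValuation y ≤ 1 → ∃ y' : F, D y = y' • D π ∧ Q.adicValuation y' ≤ 1 := by
  obtain ⟨γ, -, hγ⟩ := exists_bound_val hx hsep D Q hQ
  -- a first bound with respect to `D π`
  have h0 : ∀ y : F, Q.adicValuation y ≤ 1 → ∃ y' : F, D y = y' • D π ∧
      Q.adicValuation y' ≤ γ * (Q.adicValuation z)⁻¹ := by
    intro y hy
    obtain ⟨y', h1, h2⟩ := hγ y hy
    refine ⟨y' * z⁻¹, ?_, ?_⟩
    · rw [hπz, smul_smul, mul_assoc, inv_mul_cancel₀ hz, mul_one, h1]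
    · rw [map_mul, map_inv₀]
      exact mul_le_mul' h2 le_rfl
  -- improve the bound
  have hN : ∀ N : ℕ, (∀ y : F, Q.adicValuation y ≤ 1 → ∃ y' : F, D y = y' • D π ∧
      Q.adicValuation y' ≤ exp (N : ℤ)) →
      ∀ y : F, Q.adicValuation y ≤ 1 → ∃ y' : F, D y = y' • D π ∧ Q.adicValuation y' ≤ 1 := by
    intro N
    induction N with
    | zero =>
      intro h
      simpa using h
    | succ N ih =>
      intro h
      apply ih
      intro y hy
      obtain ⟨y', h1, h2⟩ := deriv_bound_step hx D Q hπ _ h y hy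
      refine ⟨y', h1, le_trans h2 (max_le ?_ ?_)⟩
      · rw [← exp_zero, exp_le_exp]
        exact Int.natCast_nonneg N
      · rw [← exp_add, exp_le_exp]
        push_cast
        omega
  obtain ⟨N, hN'⟩ : ∃ N : ℕ, γ * (Q.adicValuation z)⁻¹ ≤ exp (N : ℤ) := by
    rcases eq_or_ne (γ * (Q.adicValuation z)⁻¹) 0 with h | h
    · exact ⟨0, by rw [h]; exact zero_le⟩
    · refine ⟨(log (γ * (Q.adicValuation z)⁻¹)).toNat, ?_⟩
      conv_lhs => rw [← exp_log h]
      rw [exp_le_exp]
      exact Int.self_le_toNat _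
  exact hN N fun y hy => by
    obtain ⟨y', h1, h2⟩ := h0 y hy
    exact ⟨y', h1, le_trans h2 hN'⟩

/-- **independence of the local parameter**: if `π, π'` are local parameters at `Q`,
`D π = z • D x` with `z ≠ 0` and `D π' = z' • D x`, then `z' ≠ 0` and `ord_Q z' = ord_Q z`. -/
theorem ord_indep (hx : IsFF K x) (hsep : Algebra.IsSeparable K⟮x⟯ F)
    (D : Derivation K F M) (hDx : D x ≠ 0) (Q : Place K F) (hQ : Q.adicValuation x ≤ 1)
    {π π' z z' : F} (hπ : Q.ord π = 1) (hπ' : Q.ord π' = 1) (hz : z ≠ 0)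
    (h : D π = z • D x) (h' : D π' = z' • D x) : z' ≠ 0 ∧ Q.ord z' = Q.ord z := by
  have hπ0 : π ≠ 0 := by
    rintro rfl
    simp at hπ
  have hπ'0 : π' ≠ 0 := by
    rintro rfl
    simp at hπ'
  have hvπ : Q.adicValuation π = exp (-1) := by
    rw [adicValuation_eq Q hπ0, hπ]
  set v₀ := π' * π⁻¹ with hv₀
  have hv₀0 : v₀ ≠ 0 := mul_ne_zero hπ'0 (inv_ne_zero hπ0)
  have hv₀ord : Q.ord v₀ = 0 := by
    rw [hv₀, Place.ord_mul _ hπ'0 (inv_ne_zero hπ0), Place.ord_inv, hπ, hπ']
    norm_num
  have hv₀v : Q.adicValuation v₀ = 1 := by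
    rw [adicValuation_eq Q hv₀0, hv₀ord, neg_zero, exp_zero]
  obtain ⟨v₀', h1, h2⟩ := deriv_mem hx hsep D Q hQ hπ hz h v₀ hv₀v.le
  have hπ'eq : π' = π * v₀ := by
    rw [hv₀, mul_comm π', ← mul_assoc, mul_inv_cancel₀ hπ0, one_mul]
  have hD : D π' = ((π * v₀' + v₀) * z) • D x := by
    conv_lhs => rw [hπ'eq]
    rw [Derivation.leibniz, h1, smul_smul, ← add_smul, h, smul_smul]
  have hzz : z' = (π * v₀' + v₀) * z := by
    have h3 : (z' - (π * v₀' + v₀) * z) • D x = 0 := by
      rw [sub_smul, ← h', ← hD, sub_self]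
    rcases smul_eq_zero.mp h3 with h4 | h4
    · exact sub_eq_zero.mp h4
    · exact absurd h4 hDx
  have hunit : Q.adicValuation (π * v₀' + v₀) = 1 := by
    rw [← hv₀v]
    refine Valuation.map_add_eq_of_lt_right Q.adicValuation ?_
    rw [map_mul, hvπ, hv₀v]
    calc exp (-1 : ℤ) * Q.adicValuation v₀' ≤ exp (-1 : ℤ) * 1 := mul_le_mul' le_rfl h2
      _ = exp (-1 : ℤ) := mul_one _
      _ < 1 := by
        rw [← exp_zero, exp_lt_exp]
        norm_num
  have hu0 : π * v₀' + v₀ ≠ 0 := by
    intro h0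
    rw [h0, map_zero] at hunit
    exact zero_ne_one hunit
  refine ⟨hzz ▸ mul_ne_zero hu0 hz, ?_⟩
  rw [hzz, Place.ord_mul _ hu0 hz, ord_eq Q (π * v₀' + v₀), hunit, log_one, neg_zero, zero_add]

end Fermat.Agent.S36.HurwitzCount.Indep
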