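/-
PROJECT V (S36), slice V-HurwitzCount (helper17), file 7/7: THE EXPORT.  `Count.count_eq` combined
with `Indep.ord_indep`: the local bounds are needed for ONE local parameter at each non-pole, the
conclusion holds for EVERY local parameter.

Setting: `K` algebraically closed (any characteristic), `F/K` a function field, `x` separating
(`hx`, `hsep`), Riemann genus `g` (`hR`), `D : Derivation K F L` into an extension field `L` of
`F`, `m > 0`, `G ∈ F` nonzero with `(D x) ^ m = G`, `G` with a principal divisor of degree `0`,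
`ord_Q G = m ord_Q x` and `d_Q = - ord_Q x - 1` at the poles `Q` of `x`; `S1` a finite set of
non-poles with `2 #S1 ≤ m (2 g - 2 + #poles)`.

* `exists_theta` : `(D y) ^ m ∈ F` for every `y ∈ F`;
* `ord_pow_deriv_indep` : `ord_Q Θ` (`(D π) ^ m = Θ`, `π` a local parameter at `Q`) does not depend
  on `π`;
* `count_all` : if at every non-pole `Q` SOME local parameter `π` has `ord_Q ((D π) ^ m) ≥ -2`
  (`Q ∈ S1`) resp. `≥ 0` (`Q ∉ S1`), then for EVERY local parameter `π` at a non-pole `Q₀`,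
  `D π = z • D x`: `z ≠ 0`, `ord z = - d_Q₀`, and `ord_Q₀ (z ^ m G) = -2` (`Q₀ ∈ S1`), `= 0`
  (`Q₀ ∉ S1`);
* `count_all'` : the same in the `Θ`-form: `(D π) ^ m = Θ → ord_Q₀ Θ = -2` resp. `0`.
-/
import Mathlib
import Fermat.Agent.S36.HurwitzCount.Count
import Fermat.Agent.S36.HurwitzCount.Indep

set_option autoImplicit false
set_option linter.unusedSectionVars false
set_option linter.style.haveILetI false

namespace Fermat.Agent.S36.HurwitzCount.Main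

open AlgebraicCurve IntermediateField
  Fermat.Agent.S24.FF Fermat.Agent.S24.Ord Fermat.Agent.S18.A.Defs Fermat.Agent.S18.A.FibreSep

universe u w

variable {K : Type w} {F : Type u} [Field K] [Field F] [Algebra K F] [IsAlgClosed K] {x : F}
variable {L : Type*} [Field L] [Algebra F L] [Algebra K L] [IsScalarTower K F L]

/-- `x` is regular at the non-poles -/
theorem adicValuation_le_one_of_not_mem_poles (hx : IsFF K x) (hsep : Algebra.IsSeparable K⟮x⟯ F)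
    {Q : Place K F} (hQ : Q ∉ poles hx hsep) : Q.adicValuation x ≤ 1 :=
  not_lt.mp fun h => hQ ((mem_poles hx hsep Q).mpr h)

/-- `D x ≠ 0` -/
theorem deriv_ne_zero (D : Derivation K F L) {m : ℕ} (hm : 0 < m) {G : F} (hG0 : G ≠ 0)
    (hDx : (D x) ^ m = algebraMap F L G) : D x ≠ 0 := by
  intro h0
  rw [h0, zero_pow hm.ne'] at hDx
  exact hG0 ((map_eq_zero _).mp hDx.symm)

/-- the element `Θ` with `(D π) ^ m = Θ` is `z ^ m G` if `D π = z • D x` -/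
theorem theta_eq (D : Derivation K F L) (m : ℕ) (G : F)
    (hDx : (D x) ^ m = algebraMap F L G) {π z Θ : F} (h : D π = z • D x)
    (hΘ : (D π) ^ m = algebraMap F L Θ) : Θ = z ^ m * G := by
  rw [Count.pow_deriv_eq D m G hDx h] at hΘ
  exact ((algebraMap F L).injective hΘ).symm

/-- **`(D y) ^ m` is an element of `F`**, for every `y : F` -/
theorem exists_theta (hx : IsFF K x) (hsep : Algebra.IsSeparable K⟮x⟯ F)
    (D : Derivation K F L) (m : ℕ) (G : F) (hDx : (D x) ^ m = algebraMap F L G) (y : F) :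
    ∃ T : F, (D y) ^ m = algebraMap F L T := by
  obtain ⟨z, hz⟩ := Indep.exists_eq_smul hx hsep D y
  exact ⟨z ^ m * G, Count.pow_deriv_eq D m G hDx hz⟩

/-- **`ord_Q ((D π) ^ m)` does not depend on the local parameter `π`** at a non-pole `Q` -/
theorem ord_pow_deriv_indep (hx : IsFF K x) (hsep : Algebra.IsSeparable K⟮x⟯ F)
    (D : Derivation K F L) (m : ℕ) (hm : 0 < m) (G : F) (hG0 : G ≠ 0)
    (hDx : (D x) ^ m = algebraMap F L G)
    {Q : Place K F} (hQ : Q ∉ poles hx hsep) {π π' Θ Θ' : F}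
    (hπ : Q.ord π = 1) (hπ' : Q.ord π' = 1)
    (hΘ : (D π) ^ m = algebraMap F L Θ) (hΘ' : (D π') ^ m = algebraMap F L Θ') :
    Q.ord Θ = Q.ord Θ' := by
  have hreg := adicValuation_le_one_of_not_mem_poles hx hsep hQ
  have hDx0 : D x ≠ 0 := deriv_ne_zero D hm hG0 hDx
  obtain ⟨πs, zs, hs1, hs2, hs3, -⟩ := Bridge.exists_param_deriv hx hsep D Q hreg
  obtain ⟨z, hz⟩ := Indep.exists_eq_smul hx hsep D π
  obtain ⟨z', hz'⟩ := Indep.exists_eq_smul hx hsep D π'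
  obtain ⟨h1, h2⟩ := Indep.ord_indep hx hsep D hDx0 Q hreg hs1 hπ hs2 hs3 hz
  obtain ⟨h1', h2'⟩ := Indep.ord_indep hx hsep D hDx0 Q hreg hs1 hπ' hs2 hs3 hz'
  rw [theta_eq D m G hDx hz hΘ, theta_eq D m G hDx hz' hΘ',
    Place.ord_mul _ (pow_ne_zero _ h1) hG0, Place.ord_mul _ (pow_ne_zero _ h1') hG0,
    Count.ord_pow, Count.ord_pow, h2, h2']

/-- **The count, final form.**  Local bounds for SOME local parameter at every non-pole, conclusion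
for EVERY local parameter. -/
theorem count_all (hx : IsFF K x) (hsep : Algebra.IsSeparable K⟮x⟯ F) {g : ℕ}
    (hR : Fermat.Agent.S18.NonSpecial.RiemannHyp K F g)
    (D : Derivation K F L) (m : ℕ) (hm : 0 < m) (G : F) (hG0 : G ≠ 0)
    (hDx : (D x) ^ m = algebraMap F L G) (hGdiv : HasDivZero K G)
    (hGpole : ∀ Q ∈ poles hx hsep, Q.ord G = m * Q.ord x)
    (htame : ∀ Q ∈ poles hx hsep, (diffExp hx hsep Q : ℤ) = -Q.ord x - 1)
    (S1 : Finset (Place K F)) (hS1 : ∀ Q ∈ S1, Q ∉ poles hx hsep)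
    (hS : 2 * (S1.card : ℤ) ≤ m * (2 * (g : ℤ) - 2 + (poles hx hsep).card))
    (hb1 : ∀ Q ∈ S1, ∃ π Θ : F, Q.ord π = 1 ∧ (D π) ^ m = algebraMap F L Θ ∧ -2 ≤ Q.ord Θ)
    (hb0 : ∀ Q, Q ∉ S1 → Q ∉ poles hx hsep → ∃ π Θ : F, Q.ord π = 1 ∧
      (D π) ^ m = algebraMap F L Θ ∧ 0 ≤ Q.ord Θ)
    (Q₀ : Place K F) (hQ₀ : Q₀ ∉ poles hx hsep) {π z : F} (hπ : Q₀.ord π = 1)
    (hπz : D π = z • D x) :
    z ≠ 0 ∧ Q₀.ord z = -(diffExp hx hsep Q₀ : ℤ) ∧
      (D π) ^ m = algebraMap F L (z ^ m * G) ∧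
      (Q₀ ∈ S1 → Q₀.ord (z ^ m * G) = -2) ∧ (Q₀ ∉ S1 → Q₀.ord (z ^ m * G) = 0) := by
  have hDx0 : D x ≠ 0 := deriv_ne_zero D hm hG0 hDx
  -- the bounds for all local parameters
  have hb1' : ∀ Q ∈ S1, ∀ π Θ : F, Q.ord π = 1 → (D π) ^ m = algebraMap F L Θ →
      -2 ≤ Q.ord Θ := by
    intro Q hQ π Θ h1 h2
    obtain ⟨π₁, Θ₁, h3, h4, h5⟩ := hb1 Q hQ
    rw [ord_pow_deriv_indep hx hsep D m hm G hG0 hDx (hS1 Q hQ) h1 h3 h2 h4]
    exact h5
  have hb0' : ∀ Q, Q ∉ S1 → Q ∉ poles hx hsep → ∀ π Θ : F, Q.ord π = 1 →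
      (D π) ^ m = algebraMap F L Θ → 0 ≤ Q.ord Θ := by
    intro Q hQ hQp π Θ h1 h2
    obtain ⟨π₁, Θ₁, h3, h4, h5⟩ := hb0 Q hQ hQp
    rw [ord_pow_deriv_indep hx hsep D m hm G hG0 hDx hQp h1 h3 h2 h4]
    exact h5
  obtain ⟨πs, zs, hs1, hs2, hs3, hs4, hs5, hs6, hs7⟩ :=
    Count.count_eq hx hsep hR D m hm G hG0 hDx hGdiv hGpole htame S1 hS1 hS hb1' hb0' Q₀ hQ₀
  have hreg := adicValuation_le_one_of_not_mem_poles hx hsep hQ₀
  obtain ⟨h1, h2⟩ := Indep.ord_indep hx hsep D hDx0 Q₀ hreg hs1 hπ hs2 hs3 hπz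
  have hord : Q₀.ord (z ^ m * G) = Q₀.ord (zs ^ m * G) := by
    rw [Place.ord_mul _ (pow_ne_zero _ h1) hG0, Place.ord_mul _ (pow_ne_zero _ hs2) hG0,
      Count.ord_pow, Count.ord_pow, h2]
  refine ⟨h1, h2.trans hs4, Count.pow_deriv_eq D m G hDx hπz, fun h => ?_, fun h => ?_⟩
  · rw [hord]
    exact hs6 h
  · rw [hord]
    exact hs7 h

/-- **The count, final form**, stated for the element `Θ ∈ F` with `(D π) ^ m = Θ`. -/
theorem count_all' (hx : IsFF K x) (hsep : Algebra.IsSeparable K⟮x⟯ F) {g : ℕ}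
    (hR : Fermat.Agent.S18.NonSpecial.RiemannHyp K F g)
    (D : Derivation K F L) (m : ℕ) (hm : 0 < m) (G : F) (hG0 : G ≠ 0)
    (hDx : (D x) ^ m = algebraMap F L G) (hGdiv : HasDivZero K G)
    (hGpole : ∀ Q ∈ poles hx hsep, Q.ord G = m * Q.ord x)
    (htame : ∀ Q ∈ poles hx hsep, (diffExp hx hsep Q : ℤ) = -Q.ord x - 1)
    (S1 : Finset (Place K F)) (hS1 : ∀ Q ∈ S1, Q ∉ poles hx hsep)
    (hS : 2 * (S1.card : ℤ) ≤ m * (2 * (g : ℤ) - 2 + (poles hx hsep).card))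
    (hb1 : ∀ Q ∈ S1, ∃ π Θ : F, Q.ord π = 1 ∧ (D π) ^ m = algebraMap F L Θ ∧ -2 ≤ Q.ord Θ)
    (hb0 : ∀ Q, Q ∉ S1 → Q ∉ poles hx hsep → ∃ π Θ : F, Q.ord π = 1 ∧
      (D π) ^ m = algebraMap F L Θ ∧ 0 ≤ Q.ord Θ)
    (Q₀ : Place K F) (hQ₀ : Q₀ ∉ poles hx hsep) {π Θ : F} (hπ : Q₀.ord π = 1)
    (hΘ : (D π) ^ m = algebraMap F L Θ) :
    (Q₀ ∈ S1 → Q₀.ord Θ = -2) ∧ (Q₀ ∉ S1 → Q₀.ord Θ = 0) := by
  obtain ⟨z, hz⟩ := Indep.exists_eq_smul hx hsep D π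
  obtain ⟨-, -, -, h1, h2⟩ := count_all hx hsep hR D m hm G hG0 hDx hGdiv hGpole htame S1 hS1 hS
    hb1 hb0 Q₀ hQ₀ hπ hz
  rw [theta_eq D m G hDx hz hΘ]
  exact ⟨h1, h2⟩

end Fermat.Agent.S36.HurwitzCount.Main
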