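/-
PROJECT V (S36), slice V-HurwitzCountX0 (helper17): the inputs `D`, `G`, `hDx`, `hGdiv`, `hGpole`
of `HurwitzCount.Main.count_all` on the CONCRETE function field `κ_M = F_k(M)`
(`modularFunctionFieldFullC k M ⊆ k((t))`), `x = jk k M` (the series `J`), `L = k((t))`,
`m = q - 1`.

* `thetaDer k N : Derivation k κ_N k((t))`, `f ↦ θ f` (`θ = t d/dt`, `S36/ThetaL.thetaL`);
* `exists_rat_theta_pow` (level one, series): `(θ J)^(q-1) = r(J)/s(J)` with `r, s ∈ k[X]`,
  `deg r = deg s + (q - 1)`  [`(J - J^(q²)) (θ J)^(q-1) ∈ F_k(1) = k(J)` is helper13's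
  `ThetaX0.exists_unit_eval_gPolyJ2` at level one; the degree is the `t`-adic order];
* `exists_G` : for every `N`: `G ∈ κ_N`, `G ≠ 0`, `G ∈ k(jk)`, `(thetaDer k N (jk k N))^(q-1) = G`,
  `HasDivZero k G`, and `ord_Q G = (q - 1) ord_Q jk` at every pole `Q` of `jk`.
-/
import Mathlib
import Fermat.Agent.S18.A.Chart
import Fermat.Agent.S36.ThetaX0
import Fermat.Agent.S36.HurwitzCount.Main

set_option autoImplicit false
set_option linter.unusedSectionVars false
set_option linter.style.haveILetI false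

noncomputable section

namespace Fermat.Agent.S36.HurwitzCount.X0

open Polynomial ModularCurve AlgebraicCurve IntermediateField
open Fermat.Agent.S18.B.FkBasics (jk)
open Fermat.Agent.S36.ThetaL Fermat.Agent.S36.ThetaPhi

section Der

variable (k : Type*) [Field k] (N : ℕ) [NeZero N]

/-- **`θ = t d/dt` as a `k`-derivation of `κ_N = F_k(N)` into `k((t))`**; the `k`-module structure
of `k((t))` is the one of the `k`-algebra `k((t))` (`Algebra.toModule`, as in
`HurwitzCount.Main.count_all`), NOT `HahnSeries.instModule` (the two are not definitionally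
equal). -/
def thetaDer : @Derivation k ↥(modularFunctionFieldFullC k N) (LaurentSeries k) _ _ _ _ _
    Algebra.toModule :=
  letI : Module k (LaurentSeries k) := Algebra.toModule
  { toFun := fun f => thetaL (f : LaurentSeries k)
    map_add' := fun f g => thetaL_add _ _
    map_smul' := fun c f => by
      simp only [RingHom.id_apply]
      have h1 : ((c • f : ↥(modularFunctionFieldFullC k N)) : LaurentSeries k) =
          HahnSeries.C c * (f : LaurentSeries k) := by
        rw [IntermediateField.coe_smul, Algebra.smul_def, algebraMap_laurentSeries_eq_single]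
        rfl
      rw [h1, thetaL_mul, thetaL_C, zero_mul, zero_add, Algebra.smul_def,
        algebraMap_laurentSeries_eq_single]
      rfl
    map_one_eq_zero' := thetaL_one
    leibniz' := fun f g => by
      change thetaL ((f : LaurentSeries k) * (g : LaurentSeries k)) =
        (f : LaurentSeries k) * thetaL (g : LaurentSeries k) +
          (g : LaurentSeries k) * thetaL (f : LaurentSeries k)
      rw [thetaL_mul]
      ring }

@[simp] theorem thetaDer_apply (f : ↥(modularFunctionFieldFullC k N)) :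
    thetaDer k N f = thetaL (f : LaurentSeries k) := rfl

end Der

/-! ### the `t`-adic order of a polynomial in `J` -/

section Order

variable (k : Type*) [Field k]

theorem coeff_aeval_jqModC_natDegree (P : k[X]) :
    (aeval (jqModC k) P).coeff (-(P.natDegree : ℤ)) = P.leadingCoeff := by
  rw [Polynomial.aeval_eq_sum_range, HahnSeries.coeff_sum, Finset.sum_eq_single P.natDegree]
  · rw [Algebra.smul_def, algebraMap_laurentSeries_eq_single]
    change (HahnSeries.C (P.coeff P.natDegree) * jqModC k ^ P.natDegree).coeff _ = _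
    rw [HahnSeries.C_mul_eq_smul, HahnSeries.coeff_smul, coeff_jqModC_pow_self, smul_eq_mul,
      mul_one]
    rfl
  · intro i hi hne
    have hlt : i < P.natDegree :=
      lt_of_le_of_ne (Nat.lt_succ_iff.mp (Finset.mem_range.mp hi)) hne
    rw [Algebra.smul_def, algebraMap_laurentSeries_eq_single]
    change (HahnSeries.C (P.coeff i) * jqModC k ^ i).coeff _ = _
    rw [HahnSeries.C_mul_eq_smul, HahnSeries.coeff_smul,
      coeff_jqModC_pow_of_lt k (by exact_mod_cast Int.neg_lt_neg (by exact_mod_cast hlt)),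
      smul_zero]
  · intro h
    exact absurd (Finset.mem_range.mpr (Nat.lt_succ_self _)) h

theorem coeff_aeval_jqModC_of_lt (P : k[X]) {m : ℤ} (hm : m < -(P.natDegree : ℤ)) :
    (aeval (jqModC k) P).coeff m = 0 := by
  rw [Polynomial.aeval_eq_sum_range, HahnSeries.coeff_sum]
  refine Finset.sum_eq_zero fun i hi => ?_
  have hle : i ≤ P.natDegree := Nat.lt_succ_iff.mp (Finset.mem_range.mp hi)
  rw [Algebra.smul_def, algebraMap_laurentSeries_eq_single]
  change (HahnSeries.C (P.coeff i) * jqModC k ^ i).coeff _ = _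
  have hlt : m < -(i : ℤ) := by
    have : (i : ℤ) ≤ P.natDegree := by exact_mod_cast hle
    omega
  rw [HahnSeries.C_mul_eq_smul, HahnSeries.coeff_smul, coeff_jqModC_pow_of_lt k hlt, smul_zero]

theorem aeval_jqModC_ne_zero {P : k[X]} (hP : P ≠ 0) : aeval (jqModC k) P ≠ 0 := by
  intro h
  have h1 := coeff_aeval_jqModC_natDegree k P
  rw [h, HahnSeries.coeff_zero] at h1
  exact hP (Polynomial.leadingCoeff_eq_zero.mp h1.symm)

/-- **`ord_t P(J) = - deg P`** -/
theorem order_aeval_jqModC {P : k[X]} (hP : P ≠ 0) :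
    (aeval (jqModC k) P).order = -(P.natDegree : ℤ) := by
  apply le_antisymm
  · apply HahnSeries.order_le_of_coeff_ne_zero
    rw [coeff_aeval_jqModC_natDegree]
    exact Polynomial.leadingCoeff_ne_zero.mpr hP
  · by_contra hlt
    rw [not_le] at hlt
    have h0 := coeff_aeval_jqModC_of_lt k P hlt
    rw [HahnSeries.coeff_order_eq_zero] at h0
    exact aeval_jqModC_ne_zero k hP h0

/-- if `(θ J)^m s(J) = r(J)` then `deg r = deg s + m` -/
theorem natDegree_eq_of_thetaL_pow_mul {r s : k[X]} (hr : r ≠ 0) (hs : s ≠ 0) (m : ℕ)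
    (h : thetaL (jqModC k) ^ m * aeval (jqModC k) s = aeval (jqModC k) r) :
    r.natDegree = s.natDegree + m := by
  have h1 := congrArg HahnSeries.order h
  rw [HahnSeries.order_mul (pow_ne_zero _ (thetaL_jqModC_ne_zero k)) (aeval_jqModC_ne_zero k hs),
    HahnSeries.order_pow, order_thetaL_jqModC, order_aeval_jqModC k hr,
    order_aeval_jqModC k hs] at h1
  have h2 : (m : ℤ) • (-1 : ℤ) = -(m : ℤ) := by simp
  rw [natCast_zsmul] at h2
  rw [h2] at h1
  omega

end Order

/-! ### level one: `(θ J)^(q-1) ∈ k(J)` -/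

section LevelOne

local notation "Kb" => AlgebraicClosure ℚ

variable {q : ℕ} [hq : Fact q.Prime] [NeZero q] {A : ValuationSubring Kb}

open Fermat.Agent.S18.B.FkBasics in
/-- `F_k(1) = k(J)` -/
theorem adjoin_jk_one (k : Type*) [Field k] : k⟮jk k 1⟯ = ⊤ := by
  rw [← adjoin_range_jdk_eq_top k 1]
  congr 1
  ext y
  constructor
  · intro hy
    rw [Set.mem_singleton_iff] at hy
    exact ⟨⟨1, one_dvd 1⟩, by rw [hy, jdk_one]⟩
  · rintro ⟨⟨d, hd⟩, rfl⟩
    have hd1 : d = 1 := Nat.dvd_one.mp hd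
    subst hd1
    rw [Set.mem_singleton_iff]
    exact jdk_one k 1

set_option synthInstance.maxHeartbeats 400000 in
set_option maxHeartbeats 1000000 in
/-- **`(θ J)^(q-1)` lies in `F_k(1)`** (`k` the residue field of a valuation ring of `ℚ̄` over `q`) -/
theorem exists_levelOne (hA : A.LiesOverPrime q) :
    ∃ T : ↥(modularFunctionFieldFullC (IsLocalRing.ResidueField ↥A) 1),
      (T : LaurentSeries (IsLocalRing.ResidueField ↥A)) =
        thetaL (jqModC (IsLocalRing.ResidueField ↥A)) ^ (q - 1) := by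
  have hq1 : ¬ q ∣ 1 := fun h => hq.out.one_lt.ne' (Nat.dvd_one.mp h)
  obtain ⟨Φ, -, -, hΦ, hchar⟩ := Fermat.Agent.S34.Kronecker.kronecker q
  obtain ⟨u, -, hu, -, hred⟩ :=
    Fermat.Agent.S36.ThetaX0.exists_unit_eval_gPolyJ2 (M := 1) hA hq1 hΦ hchar
  haveI := Fermat.Agent.S34.GaussPairX0.charP_res hA
  set k := IsLocalRing.ResidueField ↥A
  set R := Fermat.Agent.S34.GaussPairX0.red₁ hA hq1 ⟨u, hu⟩ with hR
  refine ⟨R / (jk k 1 - jk k 1 ^ (q ^ 2)), ?_⟩
  have hne : (jqModC k - jqModC k ^ (q ^ 2)) ≠ 0 :=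
    jk_ne_jk_pow (q := q) (k := k) hq.out.one_lt
  have hcoe : ((jk k 1 - jk k 1 ^ (q ^ 2) : ↥(modularFunctionFieldFullC k 1)) :
      LaurentSeries k) = jqModC k - jqModC k ^ (q ^ 2) := rfl
  rw [IntermediateField.coe_div, hred, hcoe, mul_comm, mul_div_assoc, div_self hne, mul_one]

end LevelOne

/-! ### the rational function `R_J = (θ J)^m ∈ k(J)` and its degree -/

section Rat

variable (k : Type*) [Field k]

theorem coe_aeval_jk (N : ℕ) [NeZero N] (p : k[X]) :
    ((aeval (jk k N) p : ↥(modularFunctionFieldFullC k N)) : LaurentSeries k) =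
      aeval (jqModC k) p := by
  have h := Polynomial.aeval_algHom_apply (modularFunctionFieldFullC k N).val (jk k N) p
  exact h.symm

/-- an element of `F_k(1)` with `t`-expansion `(θ J)^m` is `r(J)/s(J)` with `deg r = deg s + m` -/
theorem exists_rat (m : ℕ) (T : ↥(modularFunctionFieldFullC k 1))
    (hT : (T : LaurentSeries k) = thetaL (jqModC k) ^ m) :
    ∃ r s : k[X], r ≠ 0 ∧ s ≠ 0 ∧
      thetaL (jqModC k) ^ m * aeval (jqModC k) s = aeval (jqModC k) r ∧
      r.natDegree = s.natDegree + m := by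
  have hmem : T ∈ k⟮jk k 1⟯ := by
    rw [adjoin_jk_one]
    trivial
  obtain ⟨r, s, hrs⟩ := (IntermediateField.mem_adjoin_simple_iff k T).mp hmem
  have hT0 : T ≠ 0 := by
    intro h0
    rw [h0] at hT
    exact pow_ne_zero m (thetaL_jqModC_ne_zero k) hT.symm
  have hr : r ≠ 0 := by
    rintro rfl
    rw [map_zero, zero_div] at hrs
    exact hT0 hrs
  have hs : s ≠ 0 := by
    rintro rfl
    rw [map_zero, div_zero] at hrs
    exact hT0 hrs
  have hsJ : aeval (jqModC k) s ≠ 0 := aeval_jqModC_ne_zero k hs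
  have h1 : thetaL (jqModC k) ^ m * aeval (jqModC k) s = aeval (jqModC k) r := by
    rw [← hT, hrs, IntermediateField.coe_div, coe_aeval_jk, coe_aeval_jk, div_mul_cancel₀ _ hsJ]
  exact ⟨r, s, hr, hs, h1, natDegree_eq_of_thetaL_pow_mul k hr hs m h1⟩

end Rat

/-! ### the inputs of the count on `κ_N` -/

section Inputs

open Fermat.Agent.S18.A.FibreSep Fermat.Agent.S18.B.FkBasics

/-- the inputs of the count from the level-one membership `(θ J)^m ∈ F_k(1)`; `k` any
algebraically closed field -/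
theorem exists_G_of_levelOne (k : Type*) [Field k] [IsAlgClosed k] (m : ℕ)
    (T : ↥(modularFunctionFieldFullC k 1))
    (hT : (T : LaurentSeries k) = thetaL (jqModC k) ^ m) (N : ℕ) [NeZero N]
    (hsep : Algebra.IsSeparable k⟮jk k N⟯ ↥(modularFunctionFieldFullC k N)) :
    ∃ G : ↥(modularFunctionFieldFullC k N), G ≠ 0 ∧ G ∈ k⟮jk k N⟯ ∧
      (thetaDer k N (jk k N)) ^ m =
        algebraMap ↥(modularFunctionFieldFullC k N) (LaurentSeries k) G ∧
      HasDivZero k G ∧
      ∀ Q ∈ poles (isFF k N) hsep, Q.ord G = (m : ℤ) * Q.ord (jk k N) := by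
  obtain ⟨r, s, hr, hs, hrs, hdeg⟩ := exists_rat k m T hT
  have htr : Transcendental k (jk k N) := transcendental_jk k N
  have hr0 : aeval (jk k N) r ≠ 0 := Fermat.Agent.S18.A.Chart.aeval_ne_zero htr hr
  have hs0 : aeval (jk k N) s ≠ 0 := Fermat.Agent.S18.A.Chart.aeval_ne_zero htr hs
  have hsJ : aeval (jqModC k) s ≠ 0 := aeval_jqModC_ne_zero k hs
  set G : ↥(modularFunctionFieldFullC k N) := aeval (jk k N) r / aeval (jk k N) s with hG
  have hG0 : G ≠ 0 := div_ne_zero hr0 hs0
  have hGmem : G ∈ k⟮jk k N⟯ :=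
    (IntermediateField.mem_adjoin_simple_iff k G).mpr ⟨r, s, rfl⟩
  refine ⟨G, hG0, hGmem, ?_, hasDivZero_of_mem_adjoin (isFF k N) hsep hGmem hG0, ?_⟩
  · rw [thetaDer_apply, coe_jk]
    change _ = ((G : ↥(modularFunctionFieldFullC k N)) : LaurentSeries k)
    rw [hG, IntermediateField.coe_div, coe_aeval_jk, coe_aeval_jk, ← hrs,
      mul_div_assoc, div_self hsJ, mul_one]
  · intro Q hQ
    have hQneg : Q.ord (jk k N) < 0 := (mem_poles_iff_ord_neg (isFF k N) hsep Q).mp hQ
    rw [hG, div_eq_mul_inv, Place.ord_mul _ hr0 (inv_ne_zero hs0), Place.ord_inv,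
      Fermat.Agent.S18.A.Chart.ord_aeval_of_pole htr Q hQneg hr,
      Fermat.Agent.S18.A.Chart.ord_aeval_of_pole htr Q hQneg hs, hdeg]
    push_cast
    ring

end Inputs

/-! ### the concrete residue field -/

section Concrete

local notation "Kb" => AlgebraicClosure ℚ

open Fermat.Agent.S18.A.FibreSep Fermat.Agent.S18.B.FkBasics

variable {q : ℕ} [hq : Fact q.Prime] [NeZero q] {A : ValuationSubring Kb}

set_option synthInstance.maxHeartbeats 400000 in
set_option maxHeartbeats 1000000 in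
/-- **The inputs `G`, `hDx`, `hGdiv`, `hGpole` of `HurwitzCount.Main.count_all`** on
`κ_N = F_k(N)`, `k` the residue field of a valuation ring `A` of `ℚ̄` over `q`, `x = jk`,
`D = thetaDer`, `m = q - 1`; EVERY level `N`. -/
theorem exists_G (hA : A.LiesOverPrime q) (N : ℕ) [NeZero N]
    [IsAlgClosed (IsLocalRing.ResidueField ↥A)]
    (hsep : Algebra.IsSeparable (IsLocalRing.ResidueField ↥A)⟮jk (IsLocalRing.ResidueField ↥A) N⟯
      ↥(modularFunctionFieldFullC (IsLocalRing.ResidueField ↥A) N)) :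
    ∃ G : ↥(modularFunctionFieldFullC (IsLocalRing.ResidueField ↥A) N), G ≠ 0 ∧
      G ∈ (IsLocalRing.ResidueField ↥A)⟮jk (IsLocalRing.ResidueField ↥A) N⟯ ∧
      (thetaDer (IsLocalRing.ResidueField ↥A) N (jk (IsLocalRing.ResidueField ↥A) N)) ^ (q - 1) =
        algebraMap ↥(modularFunctionFieldFullC (IsLocalRing.ResidueField ↥A) N)
          (LaurentSeries (IsLocalRing.ResidueField ↥A)) G ∧
      HasDivZero (IsLocalRing.ResidueField ↥A) G ∧
      ∀ Q ∈ poles (isFF (IsLocalRing.ResidueField ↥A) N) hsep,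
        Q.ord G = ((q - 1 : ℕ) : ℤ) * Q.ord (jk (IsLocalRing.ResidueField ↥A) N) := by
  obtain ⟨T, hT⟩ := exists_levelOne (q := q) hA
  exact exists_G_of_levelOne (IsLocalRing.ResidueField ↥A) (q - 1) T hT N hsep

set_option synthInstance.maxHeartbeats 400000 in
set_option maxHeartbeats 1000000 in
/-- **The count on `κ_N`**, `G`-free: `HurwitzCount.Main.count_all'` with `D = thetaDer`,
`x = jk`, `m = q - 1` and the inputs of `exists_G`.  `ν_Q := ord_Q Θ`, `Θ ∈ κ_N` the element with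
`t`-expansion `(θ π)^(q-1)`, `π` ANY local parameter at the non-cuspidal place `Q`. -/
theorem count_kappa (hA : A.LiesOverPrime q) (N : ℕ) [NeZero N]
    [IsAlgClosed (IsLocalRing.ResidueField ↥A)]
    (hsep : Algebra.IsSeparable (IsLocalRing.ResidueField ↥A)⟮jk (IsLocalRing.ResidueField ↥A) N⟯
      ↥(modularFunctionFieldFullC (IsLocalRing.ResidueField ↥A) N)) {g : ℕ}
    (hR : Fermat.Agent.S18.NonSpecial.RiemannHyp (IsLocalRing.ResidueField ↥A)
      ↥(modularFunctionFieldFullC (IsLocalRing.ResidueField ↥A) N) g)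
    (htame : ∀ Q ∈ poles (isFF (IsLocalRing.ResidueField ↥A) N) hsep,
      (Fermat.Agent.S18.A.Defs.diffExp (isFF (IsLocalRing.ResidueField ↥A) N) hsep Q : ℤ) =
        -Q.ord (jk (IsLocalRing.ResidueField ↥A) N) - 1)
    (S1 : Finset (Place (IsLocalRing.ResidueField ↥A)
      ↥(modularFunctionFieldFullC (IsLocalRing.ResidueField ↥A) N)))
    (hS1 : ∀ Q ∈ S1, Q ∉ poles (isFF (IsLocalRing.ResidueField ↥A) N) hsep)
    (hS : 2 * (S1.card : ℤ) ≤ ((q - 1 : ℕ) : ℤ) * (2 * (g : ℤ) - 2 +
      (poles (isFF (IsLocalRing.ResidueField ↥A) N) hsep).card))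
    (hb1 : ∀ Q ∈ S1, ∃ π Θ : ↥(modularFunctionFieldFullC (IsLocalRing.ResidueField ↥A) N),
      Q.ord π = 1 ∧ thetaL (π : LaurentSeries (IsLocalRing.ResidueField ↥A)) ^ (q - 1) =
        (Θ : LaurentSeries (IsLocalRing.ResidueField ↥A)) ∧ -2 ≤ Q.ord Θ)
    (hb0 : ∀ Q, Q ∉ S1 → Q ∉ poles (isFF (IsLocalRing.ResidueField ↥A) N) hsep →
      ∃ π Θ : ↥(modularFunctionFieldFullC (IsLocalRing.ResidueField ↥A) N),
      Q.ord π = 1 ∧ thetaL (π : LaurentSeries (IsLocalRing.ResidueField ↥A)) ^ (q - 1) =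
        (Θ : LaurentSeries (IsLocalRing.ResidueField ↥A)) ∧ 0 ≤ Q.ord Θ)
    (Q₀ : Place (IsLocalRing.ResidueField ↥A)
      ↥(modularFunctionFieldFullC (IsLocalRing.ResidueField ↥A) N))
    (hQ₀ : Q₀ ∉ poles (isFF (IsLocalRing.ResidueField ↥A) N) hsep)
    {π Θ : ↥(modularFunctionFieldFullC (IsLocalRing.ResidueField ↥A) N)} (hπ : Q₀.ord π = 1)
    (hΘ : thetaL (π : LaurentSeries (IsLocalRing.ResidueField ↥A)) ^ (q - 1) =
      (Θ : LaurentSeries (IsLocalRing.ResidueField ↥A))) :
    (Q₀ ∈ S1 → Q₀.ord Θ = -2) ∧ (Q₀ ∉ S1 → Q₀.ord Θ = 0) := by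
  obtain ⟨G, hG0, -, hDx, hGdiv, hGpole⟩ := exists_G (q := q) hA N hsep
  have hm : 0 < q - 1 := Nat.sub_pos_of_lt hq.out.one_lt
  exact Main.count_all' (isFF (IsLocalRing.ResidueField ↥A) N) hsep hR
    (thetaDer (IsLocalRing.ResidueField ↥A) N) (q - 1) hm G hG0 hDx hGdiv hGpole htame S1 hS1 hS
    hb1 hb0 Q₀ hQ₀ hπ hΘ

end Concrete

end Fermat.Agent.S36.HurwitzCount.X0
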